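import Mathlib
import Fermat.Prelude.Def_GaloisRep_CompletionBridge

/-!
# TW / K1: the Galois group of `ℚ_p` acts on the residue field of `PadicAlgCl p` through an
abelian group

`Ω := PadicAlgCl p`, `G := Ω ≃ₐ[ℚ_[p]] Ω`.  In norm language:

* `exists_pow_sub_lt_one` (R1): `‖x‖ ≤ 1 → ∃ n > 0, ‖x ^ (p ^ n) - x‖ < 1`
  (the residue field of `Ω` is algebraic over `𝔽_p`);
* `norm_comm_sub_lt_one`: `‖g (h x) - h (g x)‖ < 1` for `‖x‖ ≤ 1`;
* `comm_inertia`: `‖(g * h * g⁻¹ * h⁻¹) x - x‖ < 1` for `‖x‖ ≤ 1`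
  (the field `comm_inertia` of `KumEigen.TameData`).

The algebraic core `ringHom_comm_of_pow_eq` : two ring endomorphisms of a field of characteristic
`p` commute on every element with `x ^ (p ^ n) = x`; and `ringHom_eq_pow_of_pow_eq` : a ring
endomorphism acts on such elements as a power of Frobenius.
-/

set_option autoImplicit false
set_option linter.style.haveILetI false

open Polynomial

namespace Fermat.Agent.TW.K1

section Core

variable {κ : Type*} [Field κ] (p : ℕ) [hp : Fact p.Prime] [CharP κ p]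

/-- The finite subfield `{y | y ^ (p ^ n) = y}` of a field of characteristic `p`. -/
def fixSubfield (n : ℕ) : Subfield κ :=
  (iterateFrobenius κ p n).eqLocusField (RingHom.id κ)

theorem mem_fixSubfield {n : ℕ} {y : κ} : y ∈ fixSubfield (κ := κ) p n ↔ y ^ (p ^ n) = y := by
  change iterateFrobenius κ p n y = RingHom.id κ y ↔ _
  rw [iterateFrobenius_def, RingHom.id_apply]

theorem finite_fixSubfield {n : ℕ} (hn : 0 < n) : Finite (fixSubfield (κ := κ) p n) := by
  have hP : (X ^ p ^ n - X : κ[X]) ≠ 0 :=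
    FiniteField.X_pow_card_pow_sub_X_ne_zero κ hn.ne' hp.out.one_lt
  have hsub : (fixSubfield (κ := κ) p n : Set κ) ⊆ (X ^ p ^ n - X : κ[X]).rootSet κ := by
    intro y hy
    rw [mem_rootSet_of_ne hP]
    have := (mem_fixSubfield p).mp hy
    simp [this]
  exact Set.Finite.subset (rootSet_finite _ κ) hsub

/-- A ring endomorphism of a field of characteristic `p` preserves `{y | y ^ (p ^ n) = y}`. -/
theorem map_mem_fixSubfield (g : κ →+* κ) {n : ℕ} {y : κ} (hy : y ∈ fixSubfield (κ := κ) p n) :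
    g y ∈ fixSubfield (κ := κ) p n := by
  rw [mem_fixSubfield] at hy ⊢
  rw [← map_pow, hy]

/-- The restriction of a ring endomorphism to the finite subfield, as a `ZMod p`-algebra map. -/
noncomputable def restrictFix (g : κ →+* κ) (n : ℕ) :
    letI : Algebra (ZMod p) (fixSubfield (κ := κ) p n) := ZMod.algebra _ p
    (fixSubfield (κ := κ) p n) →ₐ[ZMod p] (fixSubfield (κ := κ) p n) :=
  letI : Algebra (ZMod p) (fixSubfield (κ := κ) p n) := ZMod.algebra _ p
  { toRingHom := (g.comp (fixSubfield (κ := κ) p n).subtype).codRestrict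
      (fixSubfield (κ := κ) p n) (fun y => map_mem_fixSubfield p g y.2)
    commutes' := fun r => RingHom.congr_fun (Subsingleton.elim
      (((g.comp (fixSubfield (κ := κ) p n).subtype).codRestrict
        (fixSubfield (κ := κ) p n) (fun y => map_mem_fixSubfield p g y.2)).comp
          (algebraMap (ZMod p) (fixSubfield (κ := κ) p n)))
      (algebraMap (ZMod p) (fixSubfield (κ := κ) p n))) r }

theorem restrictFix_coe (g : κ →+* κ) (n : ℕ) (y : fixSubfield (κ := κ) p n) :
    ((restrictFix p g n y : fixSubfield (κ := κ) p n) : κ) = g (y : κ) := rfl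

/-- **A ring endomorphism of a field of characteristic `p` acts on the roots of `X^(p^n) - X` as a
power of Frobenius.** -/
theorem ringHom_eq_pow_of_pow_eq (g : κ →+* κ) {n : ℕ} (hn : 0 < n) :
    ∃ a : ℕ, ∀ y : κ, y ^ (p ^ n) = y → g y = y ^ (p ^ a) := by
  letI : Algebra (ZMod p) (fixSubfield (κ := κ) p n) := ZMod.algebra _ p
  haveI := finite_fixSubfield (κ := κ) p hn
  obtain ⟨a, ha⟩ := (FiniteField.bijective_frobeniusAlgHom_pow (ZMod p)
    (fixSubfield (κ := κ) p n)).2 (restrictFix p g n)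
  refine ⟨a.1, fun y hy => ?_⟩
  have h1 := DFunLike.congr_fun ha ⟨y, (mem_fixSubfield p).mpr hy⟩
  have h2 := congrArg (Subtype.val) h1
  rw [restrictFix_coe] at h2
  rw [← h2]
  simp only [AlgHom.coe_pow, FiniteField.coe_frobeniusAlgHom, ZMod.card, pow_iterate]
  rfl

/-- **Two ring endomorphisms of a field of characteristic `p` commute on every element algebraic
over the prime field.** -/
theorem ringHom_comm_of_pow_eq (g h : κ →+* κ) {x : κ} {n : ℕ} (hn : 0 < n)
    (hx : x ^ (p ^ n) = x) : g (h x) = h (g x) := by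
  obtain ⟨a, ha⟩ := ringHom_eq_pow_of_pow_eq p g hn
  obtain ⟨b, hb⟩ := ringHom_eq_pow_of_pow_eq p h hn
  have hgx : (g x) ^ (p ^ n) = g x := by rw [← map_pow, hx]
  have hhx : (h x) ^ (p ^ n) = h x := by rw [← map_pow, hx]
  rw [ha _ hhx, hb _ hgx, ha _ hx, hb _ hx, ← pow_mul, ← pow_mul, mul_comm]

end Core

section Padic

open NNReal

variable (p : ℕ) [hp : Fact p.Prime]

local notation "Ω" => PadicAlgCl p

/-- The unit ball of `PadicAlgCl p`. -/
noncomputable abbrev ball : ValuationSubring Ω := (Valued.v : Valuation Ω ℝ≥0).valuationSubring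

theorem mem_ball_iff {x : Ω} : x ∈ ball p ↔ ‖x‖ ≤ 1 := by
  rw [Valuation.mem_valuationSubring_iff, PadicAlgCl.valuation_def]
  exact_mod_cast Iff.rfl

theorem mem_maximalIdeal_ball_iff (a : ball p) :
    a ∈ IsLocalRing.maximalIdeal (ball p) ↔ ‖(a : Ω)‖ < 1 := by
  rw [ValuationSubring.valuation_lt_one_iff]
  have h : (Valued.v : Valuation Ω ℝ≥0) (a : Ω) < 1 ↔ (ball p).valuation (a : Ω) < 1 :=
    Valuation.isEquiv_iff_val_lt_one.mp
      (Valuation.isEquiv_valuation_valuationSubring (Valued.v : Valuation Ω ℝ≥0))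
  rw [← h, PadicAlgCl.valuation_def]
  exact_mod_cast Iff.rfl

theorem residue_eq_iff (a b : ball p) :
    IsLocalRing.residue (ball p) a = IsLocalRing.residue (ball p) b ↔ ‖(a : Ω) - (b : Ω)‖ < 1 := by
  rw [← sub_eq_zero, ← map_sub, IsLocalRing.residue_eq_zero_iff, mem_maximalIdeal_ball_iff]
  rfl

/-- The residue field of `PadicAlgCl p`. -/
noncomputable abbrev resΩ : Type := IsLocalRing.ResidueField (ball p)

theorem norm_natCast_p_lt_one : ‖((p : ℕ) : Ω)‖ < 1 := by
  have h : ((p : ℕ) : Ω) = algebraMap ℚ_[p] Ω ((p : ℕ) : ℚ_[p]) := by simp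
  rw [h]
  have h2 := PadicAlgCl.norm_extends p ((p : ℕ) : ℚ_[p])
  rw [h2, Padic.norm_p]
  exact inv_lt_one_of_one_lt₀ (by exact_mod_cast hp.out.one_lt)

instance charP_resΩ : CharP (resΩ p) p := by
  rw [CharP.charP_iff_prime_eq_zero hp.out]
  have h1 : ((p : ℕ) : Ω) ∈ ball p := (mem_ball_iff p).mpr (norm_natCast_p_lt_one p).le
  have h2 : IsLocalRing.residue (ball p) ⟨((p : ℕ) : Ω), h1⟩ = 0 := by
    rw [IsLocalRing.residue_eq_zero_iff, mem_maximalIdeal_ball_iff]
    exact norm_natCast_p_lt_one p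
  have h3 : (⟨((p : ℕ) : Ω), h1⟩ : ball p) = ((p : ℕ) : ball p) := by
    apply Subtype.ext
    simp
  rw [h3, map_natCast] at h2
  exact h2

noncomputable instance algebra_resΩ : Algebra (ZMod p) (resΩ p) := ZMod.algebra _ p

/-- The action of a Galois automorphism on the unit ball. -/
noncomputable def ballMap (g : Ω ≃ₐ[ℚ_[p]] Ω) : ball p →+* ball p :=
  (((g : Ω →+* Ω)).comp (ball p).subtype).codRestrict (ball p) (fun a => by
    rw [mem_ball_iff]
    have h : ‖g (a : Ω)‖ = ‖(a : Ω)‖ := congrArg NNReal.toReal (nnnorm_padicAlgCl_algEquiv p g a)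
    change ‖g (a : Ω)‖ ≤ 1
    rw [h]
    exact (mem_ball_iff p).mp a.2)

theorem ballMap_coe (g : Ω ≃ₐ[ℚ_[p]] Ω) (a : ball p) : ((ballMap p g a : ball p) : Ω) = g a := rfl

/-- The action of a Galois automorphism on the residue field. -/
noncomputable def resMap (g : Ω ≃ₐ[ℚ_[p]] Ω) : resΩ p →+* resΩ p :=
  Ideal.quotientMap (IsLocalRing.maximalIdeal (ball p)) (ballMap p g) (by
    intro a ha
    rw [Ideal.mem_comap, mem_maximalIdeal_ball_iff, ballMap_coe]
    have h : ‖g (a : Ω)‖ = ‖(a : Ω)‖ := congrArg NNReal.toReal (nnnorm_padicAlgCl_algEquiv p g a)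
    rw [h]
    exact (mem_maximalIdeal_ball_iff p a).mp ha)

theorem resMap_residue (g : Ω ≃ₐ[ℚ_[p]] Ω) (a : ball p) :
    resMap p g (IsLocalRing.residue (ball p) a) = IsLocalRing.residue (ball p) (ballMap p g a) :=
  Ideal.quotientMap_mk

/-- The inclusion `ℤ_[p] → Ω`. -/
noncomputable def intToΩ : ℤ_[p] →+* Ω := (algebraMap ℚ_[p] Ω).comp PadicInt.Coe.ringHom

theorem norm_intToΩ (a : ℤ_[p]) : ‖intToΩ p a‖ = ‖a‖ := by
  change ‖algebraMap ℚ_[p] Ω (a : ℚ_[p])‖ = ‖a‖
  exact PadicAlgCl.norm_extends p (a : ℚ_[p])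

/-- The inclusion `ℤ_[p] → ball`. -/
noncomputable def intToBall : ℤ_[p] →+* ball p :=
  (intToΩ p).codRestrict (ball p) (fun a => by
    rw [mem_ball_iff, norm_intToΩ]; exact PadicInt.norm_le_one a)

theorem intToBall_coe (a : ℤ_[p]) : ((intToBall p a : ball p) : Ω) = intToΩ p a := rfl

/-- `ℤ_[p] → ball → residue field` is `ℤ_[p] → 𝔽_p → residue field`. -/
theorem residue_comp_intToBall :
    (IsLocalRing.residue (ball p)).comp (intToBall p) =
      (algebraMap (ZMod p) (resΩ p)).comp PadicInt.toZMod := by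
  ext a
  rw [RingHom.comp_apply, RingHom.comp_apply]
  have hspec := PadicInt.toZMod_spec a
  set n : ℕ := (PadicInt.toZMod a).val with hn
  have hcast : (ZMod.cast (PadicInt.toZMod a) : ℤ_[p]) = (n : ℤ_[p]) := by
    rw [hn, ZMod.natCast_val]
  rw [hcast] at hspec
  have h1 : ‖a - (n : ℤ_[p])‖ < 1 := by
    rwa [← PadicInt.mem_nonunits, ← IsLocalRing.mem_maximalIdeal]
  have h2 : IsLocalRing.residue (ball p) (intToBall p a) =
      IsLocalRing.residue (ball p) (intToBall p (n : ℤ_[p])) := by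
    rw [residue_eq_iff, intToBall_coe, intToBall_coe, ← map_sub, norm_intToΩ]
    exact h1
  rw [h2, map_natCast, map_natCast]
  have h3 : (PadicInt.toZMod a : ZMod p) = ((n : ℕ) : ZMod p) := by
    rw [hn, ZMod.natCast_zmod_val]
  rw [h3, map_natCast]

/-- Elements of the unit ball are integral over `ℤ_[p]` (as roots of a monic polynomial). -/
theorem exists_monic_eval₂_eq_zero {x : Ω} (hx : ‖x‖ ≤ 1) :
    ∃ P : ℤ_[p][X], P.Monic ∧ P.eval₂ (intToΩ p) x = 0 := by
  have hint : IsIntegral ℚ_[p] x := (PadicAlgCl.isAlgebraic p).isAlgebraic x |>.isIntegral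
  set f := minpoly ℚ_[p] x with hf
  have hmonic : f.Monic := minpoly.monic hint
  have hsv : spectralValue f ≤ 1 := by
    have h1 : spectralNorm ℚ_[p] Ω x = ‖x‖ := PadicAlgCl.spectralNorm_eq p x
    rw [spectralNorm] at h1
    rw [hf, h1]; exact hx
  have hcoef := (spectralValue_le_one_iff hmonic).mp hsv
  have hlifts : f ∈ Polynomial.lifts (PadicInt.Coe.ringHom (p := p)) := by
    rw [Polynomial.lifts_iff_coeff_lifts]
    intro n
    exact ⟨⟨f.coeff n, hcoef n⟩, rfl⟩
  obtain ⟨P, hP, -, hPm⟩ := Polynomial.lifts_and_degree_eq_and_monic hlifts hmonic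
  refine ⟨P, hPm, ?_⟩
  have h2 : P.eval₂ (intToΩ p) x = (P.map PadicInt.Coe.ringHom).eval₂ (algebraMap ℚ_[p] Ω) x := by
    rw [Polynomial.eval₂_map]; rfl
  rw [h2, hP, ← Polynomial.aeval_def, hf, minpoly.aeval]

/-- Residue classes are integral over `𝔽_p`. -/
theorem isIntegral_residue (a : ball p) :
    IsIntegral (ZMod p) (IsLocalRing.residue (ball p) a) := by
  obtain ⟨P, hPm, hP0⟩ := exists_monic_eval₂_eq_zero p ((mem_ball_iff p).mp a.2)
  refine ⟨P.map PadicInt.toZMod, hPm.map _, ?_⟩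
  rw [Polynomial.eval₂_map, ← residue_comp_intToBall]
  have h1 : P.eval₂ (intToBall p) a = 0 := by
    apply Subtype.ext
    have := Polynomial.hom_eval₂ P (intToBall p) (ball p).subtype a
    rw [ZeroMemClass.coe_zero]
    change (ball p).subtype (P.eval₂ (intToBall p) a) = 0
    rw [this]
    exact hP0
  rw [← Polynomial.hom_eval₂, h1, map_zero]

/-- Every residue class satisfies `y ^ (p ^ n) = y` for some `n > 0`. -/
theorem exists_pow_eq_of_isIntegral {κ : Type*} [Field κ] [Algebra (ZMod p) κ] {y : κ}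
    (hy : IsIntegral (ZMod p) y) : ∃ n : ℕ, 0 < n ∧ y ^ (p ^ n) = y := by
  set E := IntermediateField.adjoin (ZMod p) {y} with hE
  haveI : FiniteDimensional (ZMod p) E := IntermediateField.adjoin.finiteDimensional hy
  haveI : Finite E := Module.finite_of_finite (ZMod p)
  haveI : Fintype E := Fintype.ofFinite E
  haveI : CharP E p := charP_of_injective_algebraMap (algebraMap (ZMod p) E).injective p
  obtain ⟨n, -, hn⟩ := FiniteField.card E p
  refine ⟨n, n.pos, ?_⟩
  have hmem : y ∈ E := IntermediateField.mem_adjoin_simple_self (ZMod p) y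
  have h1 := FiniteField.pow_card (⟨y, hmem⟩ : E)
  rw [hn] at h1
  exact congrArg Subtype.val h1

/-- **(R1)** The residue field of `PadicAlgCl p` is algebraic over `𝔽_p`, in norm language. -/
theorem exists_pow_sub_lt_one {x : Ω} (hx : ‖x‖ ≤ 1) :
    ∃ n : ℕ, 0 < n ∧ ‖x ^ (p ^ n) - x‖ < 1 := by
  set a : ball p := ⟨x, (mem_ball_iff p).mpr hx⟩ with ha
  obtain ⟨n, hn, hpow⟩ := exists_pow_eq_of_isIntegral p (isIntegral_residue p a)
  refine ⟨n, hn, ?_⟩
  rw [← map_pow, residue_eq_iff] at hpow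
  exact hpow

/-- **Any two Galois automorphisms commute on the residue field**, in norm language. -/
theorem norm_comm_sub_lt_one (g h : Ω ≃ₐ[ℚ_[p]] Ω) {x : Ω} (hx : ‖x‖ ≤ 1) :
    ‖g (h x) - h (g x)‖ < 1 := by
  set a : ball p := ⟨x, (mem_ball_iff p).mpr hx⟩ with ha
  obtain ⟨n, hn, hpow⟩ := exists_pow_eq_of_isIntegral p (isIntegral_residue p a)
  have hcomm := ringHom_comm_of_pow_eq p (resMap p g) (resMap p h) hn hpow
  rw [resMap_residue, resMap_residue, resMap_residue, resMap_residue, residue_eq_iff] at hcomm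
  exact hcomm

/-- **Every Galois automorphism acts on the lifts of `𝔽_{p^n}` as a power of Frobenius**, in norm
language. -/
theorem exists_frob_exponent (g : Ω ≃ₐ[ℚ_[p]] Ω) {n : ℕ} (hn : 0 < n) :
    ∃ a : ℕ, ∀ y : Ω, ‖y‖ ≤ 1 → ‖y ^ (p ^ n) - y‖ < 1 → ‖g y - y ^ (p ^ a)‖ < 1 := by
  obtain ⟨a, ha⟩ := ringHom_eq_pow_of_pow_eq p (resMap p g) hn
  refine ⟨a, fun y hy hyn => ?_⟩
  set b : ball p := ⟨y, (mem_ball_iff p).mpr hy⟩ with hb
  have h1 : (IsLocalRing.residue (ball p) b) ^ (p ^ n) = IsLocalRing.residue (ball p) b := by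
    rw [← map_pow, residue_eq_iff]; exact hyn
  have h2 := ha _ h1
  rw [resMap_residue, ← map_pow, residue_eq_iff] at h2
  exact h2

/-- **`comm_inertia`**: commutators of `Gal(PadicAlgCl p / ℚ_p)` act trivially on the residue
field. -/
theorem comm_inertia (g h : Ω ≃ₐ[ℚ_[p]] Ω) (x : Ω) (hx : ‖x‖ ≤ 1) :
    ‖(g * h * g⁻¹ * h⁻¹) x - x‖ < 1 := by
  have hy : ‖g⁻¹ (h⁻¹ x)‖ ≤ 1 := by
    have h1 : ‖g⁻¹ (h⁻¹ x)‖ = ‖h⁻¹ x‖ :=
      congrArg NNReal.toReal (nnnorm_padicAlgCl_algEquiv p g⁻¹ (h⁻¹ x))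
    have h2 : ‖h⁻¹ x‖ = ‖x‖ := congrArg NNReal.toReal (nnnorm_padicAlgCl_algEquiv p h⁻¹ x)
    rw [h1, h2]; exact hx
  have := norm_comm_sub_lt_one p g h hy
  have e1 : g (h (g⁻¹ (h⁻¹ x))) = (g * h * g⁻¹ * h⁻¹) x := by
    simp [AlgEquiv.mul_apply]
  have e2 : h (g (g⁻¹ (h⁻¹ x))) = x := by
    rw [← AlgEquiv.mul_apply g, mul_inv_cancel, AlgEquiv.one_apply, ← AlgEquiv.mul_apply h,
      mul_inv_cancel, AlgEquiv.one_apply]
  rwa [e1, e2] at this

end Padic

end Fermat.Agent.TW.K1
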