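import Mathlib
import Fermat.Prelude.Def_GaloisRep_CompletionBridge

/-!
# S56 sprint, K1 BRIDGE (1): the residue field of `ℚ̄_p` in norm language

`𝒪 = padicIntegers p` is the closed unit ball of `Ω = PadicAlgCl p`, `κ` its residue field.  We
provide the dictionary `res x = res y ↔ ‖x - y‖ < 1`, `CharP κ p`, and the description of the
elements of `κ` fixed by the Frobenius (`x ^ p = x ↔ x` is the residue of an integer).

Branch-only work.
-/

set_option autoImplicit false
set_option linter.style.haveILetI false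

namespace Fermat.Agent.TW.K1

open scoped NNReal
open IsLocalRing Polynomial

variable (p : ℕ) [hp : Fact p.Prime]

/-- The residue field of `ℚ̄_p`. -/
abbrev Kappa : Type := ResidueField (padicIntegers p)

variable {p}

/-- Ultrametric inequality for differences. -/
theorem norm_sub_le_max (x y : PadicAlgCl p) : ‖x - y‖ ≤ max ‖x‖ ‖y‖ := by
  rw [sub_eq_add_neg]
  exact (IsUltrametricDist.norm_add_le_max x (-y)).trans_eq (by rw [norm_neg])

/-- An element of the closed unit ball as an element of `padicIntegers p`. -/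
def toInt (x : PadicAlgCl p) (hx : ‖x‖ ≤ 1) : padicIntegers p :=
  ⟨x, (mem_padicIntegers_iff p).2 (by rw [← NNReal.coe_le_coe]; exact hx)⟩

@[simp] theorem coe_toInt (x : PadicAlgCl p) (hx : ‖x‖ ≤ 1) :
    ((toInt x hx : padicIntegers p) : PadicAlgCl p) = x := rfl

theorem norm_coe_le_one (x : padicIntegers p) : ‖(x : PadicAlgCl p)‖ ≤ 1 := by
  have := (mem_padicIntegers_iff p).1 x.2
  rw [← NNReal.coe_le_coe] at this
  exact this

/-- The residue map on the closed unit ball. -/
noncomputable def resBall (x : PadicAlgCl p) (hx : ‖x‖ ≤ 1) : Kappa p :=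
  residue (padicIntegers p) (toInt x hx)

theorem mem_maximalIdeal_iff (x : padicIntegers p) :
    x ∈ maximalIdeal (padicIntegers p) ↔ ‖(x : PadicAlgCl p)‖ < 1 := by
  rw [ValuationSubring.valuation_lt_one_iff,
    ← (Valuation.isEquiv_valuation_valuationSubring
      (Valued.v : Valuation (PadicAlgCl p) ℝ≥0)).lt_one_iff_lt_one]
  show ‖(x : PadicAlgCl p)‖₊ < 1 ↔ _
  rw [← NNReal.coe_lt_coe]
  rfl

theorem residue_eq_zero_iff' (x : padicIntegers p) :
    residue (padicIntegers p) x = 0 ↔ ‖(x : PadicAlgCl p)‖ < 1 := by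
  rw [residue_eq_zero_iff, mem_maximalIdeal_iff]

theorem residue_eq_iff_norm (x y : padicIntegers p) :
    residue (padicIntegers p) x = residue (padicIntegers p) y ↔
      ‖(x : PadicAlgCl p) - (y : PadicAlgCl p)‖ < 1 := by
  rw [← sub_eq_zero, ← map_sub, residue_eq_zero_iff']
  rfl

theorem resBall_eq_zero_iff (x : PadicAlgCl p) (hx : ‖x‖ ≤ 1) : resBall x hx = 0 ↔ ‖x‖ < 1 :=
  residue_eq_zero_iff' _

theorem resBall_eq_iff (x y : PadicAlgCl p) (hx : ‖x‖ ≤ 1) (hy : ‖y‖ ≤ 1) :
    resBall x hx = resBall y hy ↔ ‖x - y‖ < 1 :=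
  residue_eq_iff_norm _ _

theorem norm_natCast_le_one (n : ℕ) : ‖(n : PadicAlgCl p)‖ ≤ 1 := by
  have : (n : PadicAlgCl p) = algebraMap ℚ_[p] (PadicAlgCl p) (n : ℚ_[p]) := by simp
  rw [this, PadicAlgCl.norm_extends]
  exact_mod_cast Padic.norm_int_le_one (p := p) (n : ℤ)

theorem norm_prime : ‖(p : PadicAlgCl p)‖ = (p : ℝ)⁻¹ := by
  have : (p : PadicAlgCl p) = algebraMap ℚ_[p] (PadicAlgCl p) (p : ℚ_[p]) := by simp
  rw [this, PadicAlgCl.norm_extends, Padic.norm_p]

theorem norm_prime_lt_one : ‖(p : PadicAlgCl p)‖ < 1 := by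
  rw [norm_prime]
  exact inv_lt_one_of_one_lt₀ (by exact_mod_cast hp.out.one_lt)

instance charP_kappa : CharP (Kappa p) p := by
  have h0 : ((p : ℕ) : Kappa p) = 0 := by
    have h1 : ((p : ℕ) : Kappa p) = residue (padicIntegers p) ((p : ℕ) : padicIntegers p) := by
      rw [map_natCast]
    rw [h1, residue_eq_zero_iff']
    have : (((p : ℕ) : padicIntegers p) : PadicAlgCl p) = (p : PadicAlgCl p) := by simp
    rw [this]
    exact norm_prime_lt_one
  exact (CharP.charP_iff_prime_eq_zero hp.out).2 h0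

/-- Elements of a field of characteristic `p` fixed by the Frobenius are residues of integers. -/
theorem exists_natCast_eq_of_pow_eq_self {K : Type*} [Field K] [CharP K p] {x : K}
    (hx : x ^ p = x) : ∃ m : ℕ, (m : K) = x := by
  classical
  letI : Algebra (ZMod p) K := ZMod.algebra K p
  have hroots : (X ^ p - X : (ZMod p)[X]).roots = Finset.univ.val := by
    have := FiniteField.roots_X_pow_card_sub_X (ZMod p)
    rwa [ZMod.card] at this
  have hne : (X ^ p - X : (ZMod p)[X]) ≠ 0 :=
    FiniteField.X_pow_card_sub_X_ne_zero (ZMod p) hp.out.one_lt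
  have hsplit : (X ^ p - X : (ZMod p)[X]).Splits := by
    rw [Polynomial.splits_iff_card_roots, hroots, FiniteField.X_pow_card_sub_X_natDegree_eq _
      hp.out.one_lt]
    simp [ZMod.card]
  have hx' : Polynomial.aeval x (X ^ p - X : (ZMod p)[X]) = 0 := by
    simp [hx]
  have hroot : ((X ^ p - X : (ZMod p)[X]).map (algebraMap (ZMod p) K)).IsRoot x := by
    rw [Polynomial.IsRoot.def, Polynomial.eval_map_algebraMap]
    exact hx'
  obtain ⟨a, ha⟩ := hsplit.mem_range_of_isRoot hne hroot
  refine ⟨a.val, ?_⟩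
  rw [← ha]
  have : (a : ZMod p) = ((a.val : ℕ) : ZMod p) := (ZMod.natCast_zmod_val a).symm
  rw [this, map_natCast]
  simp

end Fermat.Agent.TW.K1
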