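import Mathlib
import Fermat.Agent.TW.K1.Residue

/-!
# S56 sprint, K1 BRIDGE (2): the data `ζ`, `π`; Teichmüller distinctness; Frobenius on `ζ`

`ζ` a primitive `(p² - 1)`-th root of unity and `π` a root of `X^(p²-1) + p` in `Ω = PadicAlgCl p`.

* `norm_zeta_pow_sub_zeta_pow` : `‖ζ^i - ζ^j‖ = 1` for `i ≢ j mod p² - 1`;
* `map_zeta` : every `σ ∈ Gal(Ω/ℚ_p)` maps `ζ` to `ζ` or to `ζ^p`;
* `ζ ∉ ℚ_p`, `ζ + ζ^p ∈ ℚ_p`, `ζ^(p+1) ∈ ℚ_p`.

Branch-only work.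
-/

set_option autoImplicit false
set_option linter.style.haveILetI false
set_option linter.dupNamespace false

namespace Fermat.Agent.TW.K1

open scoped NNReal
open IsLocalRing Polynomial

variable (p : ℕ) [hp : Fact p.Prime]

/-- A primitive `(p²-1)`-th root of unity `ζ` and a root `π` of `X^(p²-1) + p` in `ℚ̄_p`. -/
structure TameData where
  /-- a primitive `(p²-1)`-th root of unity -/
  ζ : PadicAlgCl p
  /-- a root of `X^(p²-1) + p` -/
  π : PadicAlgCl p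
  hζ : IsPrimitiveRoot ζ (p ^ 2 - 1)
  hπ : π ^ (p ^ 2 - 1) = -(p : PadicAlgCl p)

theorem two_le_prime : 2 ≤ p := hp.out.two_le

theorem one_lt_sq_sub_one : 1 < p ^ 2 - 1 := by
  have := two_le_prime p
  have : 4 ≤ p ^ 2 := by nlinarith
  omega

theorem sq_sub_one_pos : 0 < p ^ 2 - 1 := lt_trans one_pos (one_lt_sq_sub_one p)

theorem sq_sub_one_add_one : p ^ 2 - 1 + 1 = p ^ 2 := by
  have := one_lt_sq_sub_one p
  omega

theorem not_dvd_sq_sub_one : ¬ p ∣ p ^ 2 - 1 := by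
  intro h
  have h2 : p ∣ p ^ 2 := dvd_pow_self p two_ne_zero
  have h3 : p ∣ p ^ 2 - (p ^ 2 - 1) := Nat.dvd_sub h2 h
  have h4 : p ^ 2 - (p ^ 2 - 1) = 1 := by
    have := one_lt_sq_sub_one p
    omega
  rw [h4] at h3
  exact hp.out.one_lt.ne' (Nat.dvd_one.1 h3)

instance neZero_sq_sub_one : NeZero (p ^ 2 - 1) := ⟨(sq_sub_one_pos p).ne'⟩

theorem nonempty_tameData : Nonempty (TameData p) := by
  obtain ⟨ζ, hζ⟩ := HasEnoughRootsOfUnity.exists_primitiveRoot (PadicAlgCl p) (p ^ 2 - 1)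
  obtain ⟨π, hπ⟩ := IsAlgClosed.exists_pow_nat_eq (-(p : PadicAlgCl p)) (sq_sub_one_pos p)
  exact ⟨⟨ζ, π, hζ, hπ⟩⟩

variable {p}

/-! ### Roots of unity of order prime to `p` are distinct modulo `𝔪` -/

theorem norm_eq_one_of_pow_eq_one {η : PadicAlgCl p} {m : ℕ} (hm : m ≠ 0) (h : η ^ m = 1) :
    ‖η‖ = 1 := by
  have h1 : ‖η‖ ^ m = 1 := by rw [← norm_pow, h, norm_one]
  exact (pow_eq_one_iff_of_nonneg (norm_nonneg _) hm).1 h1

theorem norm_sub_one_of_primitiveRoot {η : PadicAlgCl p} {m : ℕ} (hη : IsPrimitiveRoot η m)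
    (hm : 1 < m) (hpm : ¬ p ∣ m) : ‖η - 1‖ = 1 := by
  have hη1 : ‖η‖ = 1 := norm_eq_one_of_pow_eq_one (by omega) hη.pow_eq_one
  have hle : ‖η - 1‖ ≤ 1 := by
    refine (norm_sub_le_max _ _).trans ?_
    rw [hη1, norm_one, max_self]
  refine le_antisymm hle (not_lt.1 fun hlt => hpm ?_)
  -- in the residue field `η = 1`, so `m = 0`
  set η' : padicIntegers p := toInt η hη1.le with hη'
  have hres : residue (padicIntegers p) η' = 1 := by
    rw [← map_one (residue (padicIntegers p)), residue_eq_iff_norm]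
    exact hlt
  have hsum : (∑ i ∈ Finset.range m, η' ^ i : padicIntegers p) = 0 := by
    apply Subtype.ext
    have := hη.geom_sum_eq_zero hm
    simpa [hη'] using this
  have := congrArg (residue (padicIntegers p)) hsum
  rw [map_sum, map_zero] at this
  simp only [map_pow, hres, one_pow, Finset.sum_const, Finset.card_range, nsmul_eq_mul,
    mul_one] at this
  exact (CharP.cast_eq_zero_iff (Kappa p) p m).1 this

variable (D : TameData p)

theorem zeta_pow_eq_one : D.ζ ^ (p ^ 2 - 1) = 1 := D.hζ.pow_eq_one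

theorem zeta_pow_sq : D.ζ ^ (p ^ 2) = D.ζ := by
  rw [← sq_sub_one_add_one p, pow_succ, zeta_pow_eq_one, one_mul]

theorem norm_zeta : ‖D.ζ‖ = 1 :=
  norm_eq_one_of_pow_eq_one (sq_sub_one_pos p).ne' (zeta_pow_eq_one D)

theorem norm_zeta_pow (i : ℕ) : ‖D.ζ ^ i‖ = 1 := by
  rw [norm_pow, norm_zeta, one_pow]

theorem zeta_ne_zero : D.ζ ≠ 0 := by
  intro h
  have := norm_zeta D
  rw [h, norm_zero] at this
  exact zero_ne_one this

theorem zeta_pow_eq_zeta_pow_iff {i j : ℕ} :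
    D.ζ ^ i = D.ζ ^ j ↔ i ≡ j [MOD p ^ 2 - 1] := by
  have hu : IsUnit D.ζ := D.hζ.isUnit (sq_sub_one_pos p).ne'
  obtain ⟨u, hu⟩ := hu
  have h1 : ∀ n : ℕ, D.ζ ^ n = ((u ^ n : (PadicAlgCl p)ˣ) : PadicAlgCl p) := fun n => by
    rw [Units.val_pow_eq_pow_val, hu]
  have h2 : orderOf u = p ^ 2 - 1 := by
    rw [← orderOf_units, hu]
    exact D.hζ.eq_orderOf.symm
  rw [h1, h1, Units.val_inj, pow_eq_pow_iff_modEq, h2]

theorem norm_zeta_pow_sub_one {k : ℕ} (hk : ¬ (p ^ 2 - 1) ∣ k) : ‖D.ζ ^ k - 1‖ = 1 := by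
  have hne : D.ζ ^ k ≠ 1 := fun h => hk ((D.hζ.pow_eq_one_iff_dvd k).1 h)
  have hprim : IsPrimitiveRoot (D.ζ ^ k) (orderOf (D.ζ ^ k)) := IsPrimitiveRoot.orderOf _
  have hdvd : orderOf (D.ζ ^ k) ∣ p ^ 2 - 1 := by
    apply orderOf_dvd_of_pow_eq_one
    rw [← pow_mul, mul_comm, pow_mul, zeta_pow_eq_one, one_pow]
  have hpos : 0 < orderOf (D.ζ ^ k) :=
    Nat.pos_of_dvd_of_pos hdvd (sq_sub_one_pos p)
  have h1 : 1 < orderOf (D.ζ ^ k) := by
    rcases Nat.lt_or_ge 1 (orderOf (D.ζ ^ k)) with h | h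
    · exact h
    · exfalso
      have : orderOf (D.ζ ^ k) = 1 := by omega
      exact hne (orderOf_eq_one_iff.1 this)
  exact norm_sub_one_of_primitiveRoot hprim h1 fun h =>
    not_dvd_sq_sub_one p (h.trans hdvd)

/-- **Teichmüller distinctness.** -/
theorem norm_zeta_pow_sub_zeta_pow {i j : ℕ} (hij : ¬ i ≡ j [MOD p ^ 2 - 1]) :
    ‖D.ζ ^ i - D.ζ ^ j‖ = 1 := by
  wlog h : j ≤ i generalizing i j
  · rw [norm_sub_rev]
    exact this (fun h' => hij h'.symm) (le_of_not_ge h)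
  have h1 : D.ζ ^ i - D.ζ ^ j = D.ζ ^ j * (D.ζ ^ (i - j) - 1) := by
    rw [mul_sub, mul_one, ← pow_add, Nat.add_sub_cancel' h]
  rw [h1, norm_mul, norm_zeta_pow, one_mul]
  apply norm_zeta_pow_sub_one
  intro hdvd
  apply hij
  exact ((Nat.modEq_iff_dvd' h).2 hdvd).symm

theorem eq_of_norm_zeta_pow_sub_zeta_pow_lt {i j : ℕ} (h : ‖D.ζ ^ i - D.ζ ^ j‖ < 1) :
    D.ζ ^ i = D.ζ ^ j := by
  by_contra hne
  rw [zeta_pow_eq_zeta_pow_iff] at hne
  rw [norm_zeta_pow_sub_zeta_pow D hne] at h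
  exact lt_irrefl _ h

/-! ### `π` -/

theorem norm_pi_pow : ‖D.π‖ ^ (p ^ 2 - 1) = (p : ℝ)⁻¹ := by
  rw [← norm_pow, D.hπ, norm_neg, norm_prime]

theorem norm_pi_pos : 0 < ‖D.π‖ := by
  rw [norm_pos_iff]
  intro h
  have := D.hπ
  rw [h, zero_pow (sq_sub_one_pos p).ne'] at this
  have hp0 : (p : PadicAlgCl p) ≠ 0 := Nat.cast_ne_zero.2 hp.out.ne_zero
  exact hp0 (neg_eq_zero.1 this.symm)

theorem pi_ne_zero : D.π ≠ 0 := norm_pos_iff.1 (norm_pi_pos D)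

theorem norm_pi_lt_one : ‖D.π‖ < 1 := by
  by_contra h
  have h1 : 1 ≤ ‖D.π‖ ^ (p ^ 2 - 1) := one_le_pow₀ (not_lt.1 h)
  rw [norm_pi_pow] at h1
  have : (p : ℝ)⁻¹ < 1 := inv_lt_one_of_one_lt₀ (by exact_mod_cast hp.out.one_lt)
  linarith

/-! ### Frobenius -/

/-- Elements of the unit ball whose residue is fixed by the Frobenius are congruent to integers. -/
theorem exists_norm_sub_natCast_lt_one (x : padicIntegers p)
    (hx : residue (padicIntegers p) x ^ p = residue (padicIntegers p) x) :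
    ∃ m : ℕ, ‖(x : PadicAlgCl p) - (m : PadicAlgCl p)‖ < 1 := by
  obtain ⟨m, hm⟩ := exists_natCast_eq_of_pow_eq_self (p := p) hx
  refine ⟨m, ?_⟩
  have h1 : residue (padicIntegers p) x = residue (padicIntegers p) ((m : ℕ) : padicIntegers p) := by
    rw [map_natCast, hm]
  rw [residue_eq_iff_norm] at h1
  simpa using h1

theorem norm_map_sub_lt_one_of_near_natCast (σ : PadicAlgCl p ≃ₐ[ℚ_[p]] PadicAlgCl p)
    {a : PadicAlgCl p} {m : ℕ} (h : ‖a - (m : PadicAlgCl p)‖ < 1) : ‖σ a - a‖ < 1 := by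
  have h1 : σ a - a = σ (a - (m : PadicAlgCl p)) - (a - (m : PadicAlgCl p)) := by
    rw [map_sub, map_natCast]
    ring
  rw [h1]
  refine (norm_sub_le_max _ _).trans_lt (max_lt ?_ h)
  have := nnnorm_padicAlgCl_algEquiv p σ (a - (m : PadicAlgCl p))
  rw [← NNReal.coe_inj] at this
  rw [show ‖σ (a - (m : PadicAlgCl p))‖ = ‖a - (m : PadicAlgCl p)‖ from this]
  exact h

theorem norm_map (σ : PadicAlgCl p ≃ₐ[ℚ_[p]] PadicAlgCl p) (x : PadicAlgCl p) : ‖σ x‖ = ‖x‖ := by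
  have := nnnorm_padicAlgCl_algEquiv p σ x
  rw [← NNReal.coe_inj] at this
  exact this

/-- **Frobenius on `ζ`**: every automorphism maps `ζ` to `ζ` or `ζ^p`. -/
theorem map_zeta (σ : PadicAlgCl p ≃ₐ[ℚ_[p]] PadicAlgCl p) : σ D.ζ = D.ζ ∨ σ D.ζ = D.ζ ^ p := by
  -- the residue of `ζ`
  set z : padicIntegers p := toInt D.ζ (norm_zeta D).le with hz
  have hzn : z ^ (p ^ 2) = z := by
    apply Subtype.ext
    simp [hz, zeta_pow_sq]
  set zb := residue (padicIntegers p) z with hzb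
  have hzbn : zb ^ (p ^ 2) = zb := by rw [hzb, ← map_pow, hzn]
  -- `a = ζ + ζ^p` and `b = ζ^(p+1)` are congruent to integers
  have ha : residue (padicIntegers p) (z + z ^ p) ^ p = residue (padicIntegers p) (z + z ^ p) := by
    rw [map_add, map_pow, add_pow_char, ← pow_mul, ← sq, hzbn, add_comm]
  have hb : residue (padicIntegers p) (z ^ (p + 1)) ^ p = residue (padicIntegers p) (z ^ (p + 1)) := by
    rw [map_pow, ← hzb]
    calc (zb ^ (p + 1)) ^ p = (zb ^ (p ^ 2)) * zb ^ p := by ring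
      _ = zb ^ (p + 1) := by rw [hzbn]; ring
  obtain ⟨ma, hma⟩ := exists_norm_sub_natCast_lt_one _ ha
  obtain ⟨mb, hmb⟩ := exists_norm_sub_natCast_lt_one _ hb
  have hma' : ‖(D.ζ + D.ζ ^ p) - (ma : PadicAlgCl p)‖ < 1 := by simpa [hz] using hma
  have hmb' : ‖D.ζ ^ (p + 1) - (mb : PadicAlgCl p)‖ < 1 := by simpa [hz] using hmb
  have h1 := norm_map_sub_lt_one_of_near_natCast σ hma'
  have h2 := norm_map_sub_lt_one_of_near_natCast σ hmb'
  -- `ξ = σ ζ` is a power of `ζ`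
  set ξ := σ D.ζ with hξ
  have hξn : ξ ^ (p ^ 2 - 1) = 1 := by rw [hξ, ← map_pow, zeta_pow_eq_one, map_one]
  obtain ⟨k, -, hk⟩ := D.hζ.eq_pow_of_pow_eq_one hξn
  have hξ1 : ‖ξ‖ = 1 := by rw [hξ, norm_map, norm_zeta]
  -- `(ξ - ζ)(ξ - ζ^p) = (σ a - a) ξ - (σ b - b)`
  have hq : (ξ - D.ζ) * (ξ - D.ζ ^ p) =
      (σ (D.ζ + D.ζ ^ p) - (D.ζ + D.ζ ^ p)) * ξ - (σ (D.ζ ^ (p + 1)) - D.ζ ^ (p + 1)) := by
    rw [map_pow, map_add, map_pow, ← hξ]
    ring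
  have hlt : ‖(ξ - D.ζ) * (ξ - D.ζ ^ p)‖ < 1 := by
    rw [hq]
    refine (norm_sub_le_max _ _).trans_lt (max_lt ?_ h2)
    rw [norm_mul, hξ1, mul_one]
    exact h1
  rw [norm_mul] at hlt
  have hle1 : ‖ξ - D.ζ‖ ≤ 1 := by
    refine (norm_sub_le_max _ _).trans ?_
    rw [hξ1, norm_zeta, max_self]
  have hle2 : ‖ξ - D.ζ ^ p‖ ≤ 1 := by
    refine (norm_sub_le_max _ _).trans ?_
    rw [hξ1, norm_zeta_pow, max_self]
  rcases lt_or_ge ‖ξ - D.ζ‖ 1 with h | h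
  · left
    rw [← hk, ← pow_one D.ζ] at h ⊢
    rw [pow_one] at h ⊢
    have := eq_of_norm_zeta_pow_sub_zeta_pow_lt D (i := k) (j := 1) (by rwa [pow_one])
    rwa [pow_one] at this
  · right
    have h' : ‖ξ - D.ζ ^ p‖ < 1 := by
      by_contra hcon
      have : ‖ξ - D.ζ‖ * ‖ξ - D.ζ ^ p‖ = 1 := by
        rw [le_antisymm hle1 h, le_antisymm hle2 (not_lt.1 hcon), mul_one]
      rw [this] at hlt
      exact lt_irrefl _ hlt
    rw [← hk] at h' ⊢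
    exact eq_of_norm_zeta_pow_sub_zeta_pow_lt D h'

theorem map_zeta_add (σ : PadicAlgCl p ≃ₐ[ℚ_[p]] PadicAlgCl p) :
    σ (D.ζ + D.ζ ^ p) = D.ζ + D.ζ ^ p := by
  rcases map_zeta D σ with h | h
  · rw [map_add, map_pow, h]
  · rw [map_add, map_pow, h, ← pow_mul, ← sq, zeta_pow_sq, add_comm]

theorem map_zeta_pow_succ (σ : PadicAlgCl p ≃ₐ[ℚ_[p]] PadicAlgCl p) :
    σ (D.ζ ^ (p + 1)) = D.ζ ^ (p + 1) := by
  rcases map_zeta D σ with h | h
  · rw [map_pow, h]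
  · rw [map_pow, h, ← pow_mul, mul_add, mul_one, pow_add, ← sq, zeta_pow_sq, pow_succ, mul_comm]

theorem mem_bot_of_forall_map_eq {x : PadicAlgCl p}
    (h : ∀ σ : PadicAlgCl p ≃ₐ[ℚ_[p]] PadicAlgCl p, σ x = x) :
    x ∈ (⊥ : IntermediateField ℚ_[p] (PadicAlgCl p)) := by
  rw [← InfiniteGalois.fixedField_fixingSubgroup (⊥ : IntermediateField ℚ_[p] (PadicAlgCl p)),
    IntermediateField.mem_fixedField_iff]
  intro σ _
  exact h σ

theorem zeta_add_zeta_pow_mem_bot :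
    D.ζ + D.ζ ^ p ∈ (⊥ : IntermediateField ℚ_[p] (PadicAlgCl p)) :=
  mem_bot_of_forall_map_eq (map_zeta_add D)

theorem zeta_pow_succ_mem_bot :
    D.ζ ^ (p + 1) ∈ (⊥ : IntermediateField ℚ_[p] (PadicAlgCl p)) :=
  mem_bot_of_forall_map_eq (map_zeta_pow_succ D)

end Fermat.Agent.TW.K1
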