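import Mathlib
import Fermat.Agent.TW.K1.Roots

/-!
# S56 sprint, K1 BRIDGE (3): the unramified quadratic field `K0 = ℚ_p(ζ)`

* `isPrimitiveRoot_zb` : the residue of `ζ` is a primitive `(p²-1)`-th root of unity;
* `one_le_norm_zeta_sub` : `ζ` is not congruent to an element of `ℚ_p`;
* `norm_add_mul_zeta` : `‖a + b ζ‖ = max ‖a‖ ‖b‖` for `a b : ℚ_p`;
* `exists_eq_add_mul_zeta` : every element of `K0` is `a + b ζ`;
* `norm_mem_K0` : the value group of `K0` is `p^ℤ`;
* `exists_norm_sub_zeta_pow_lt_one_of_mem_K0` : the unit residue classes of `K0` are the powers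
  of `ζ`.

Branch-only work.
-/

set_option autoImplicit false
set_option linter.style.haveILetI false
set_option linter.dupNamespace false

namespace Fermat.Agent.TW.K1

open scoped NNReal
open IsLocalRing Polynomial

variable {p : ℕ} [hp : Fact p.Prime] (D : TameData p)

local notation "Ω" => PadicAlgCl p
local notation "ι" => algebraMap ℚ_[p] (PadicAlgCl p)

/-! ### The residue of `ζ` -/

/-- The residue of `ζ`. -/
noncomputable def zb : Kappa p := residue (padicIntegers p) (toInt D.ζ (norm_zeta D).le)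

theorem zb_pow (i : ℕ) :
    zb D ^ i = residue (padicIntegers p) (toInt (D.ζ ^ i) (norm_zeta_pow D i).le) := by
  rw [zb, ← map_pow]
  rfl

theorem zb_pow_eq_one_iff (i : ℕ) : zb D ^ i = 1 ↔ ‖D.ζ ^ i - 1‖ < 1 := by
  rw [zb_pow, ← map_one (residue (padicIntegers p)), residue_eq_iff_norm]
  rfl

theorem zb_pow_sq : zb D ^ (p ^ 2) = zb D := by
  rw [zb_pow]
  congr 1
  apply Subtype.ext
  exact zeta_pow_sq D

theorem isPrimitiveRoot_zb : IsPrimitiveRoot (zb D) (p ^ 2 - 1) := by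
  refine IsPrimitiveRoot.mk_of_lt _ (sq_sub_one_pos p) ?_ ?_
  · rw [zb_pow_eq_one_iff, zeta_pow_eq_one, sub_self, norm_zero]
    exact one_pos
  · intro l hl0 hl h
    rw [zb_pow_eq_one_iff, norm_zeta_pow_sub_one D (Nat.not_dvd_of_pos_of_lt hl0 hl)] at h
    exact lt_irrefl _ h

theorem zb_ne_zero : zb D ≠ 0 := (isPrimitiveRoot_zb D).ne_zero (sq_sub_one_pos p).ne'

theorem zb_pow_prime_ne : zb D ^ p ≠ zb D := by
  intro h
  have h1 : zb D ^ p = zb D ^ 1 := by rw [pow_one]; exact h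
  have hp1 : p < p ^ 2 - 1 := by
    have := hp.out.two_le
    have : 2 * p ≤ p ^ 2 := by nlinarith
    omega
  have := (isPrimitiveRoot_zb D).pow_inj hp1 (one_lt_sq_sub_one p) h1
  exact hp.out.one_lt.ne' this

/-! ### Residues of `p`-adic numbers -/

theorem natCast_pow_prime (m : ℕ) : ((m : Kappa p)) ^ p = m := by
  have h := congrArg (ZMod.castHom (dvd_refl p) (Kappa p)) (ZMod.pow_card (m : ZMod p))
  rw [map_pow, map_natCast] at h
  exact h

/-- A `p`-adic number of norm `≤ 1` as a `p`-adic integer. -/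
def toPadicInt (y : ℚ_[p]) (hy : ‖y‖ ≤ 1) : ℤ_[p] := ⟨y, hy⟩

theorem coe_toPadicInt (y : ℚ_[p]) (hy : ‖y‖ ≤ 1) : ((toPadicInt y hy : ℤ_[p]) : ℚ_[p]) = y := rfl

theorem exists_natCast_near (y : ℚ_[p]) (hy : ‖y‖ ≤ 1) :
    ∃ m : ℕ, ‖ι y - (m : Ω)‖ < 1 := by
  obtain ⟨n, -, hn⟩ := PadicInt.exists_mem_range (toPadicInt y hy)
  refine ⟨n, ?_⟩
  rw [mem_maximalIdeal, PadicInt.mem_nonunits] at hn
  have h1 : ‖y - (n : ℚ_[p])‖ < 1 := by
    have : ((toPadicInt y hy - (n : ℤ_[p]) : ℤ_[p]) : ℚ_[p]) = y - (n : ℚ_[p]) := by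
      rw [PadicInt.coe_sub, PadicInt.coe_natCast, coe_toPadicInt]
    rw [← this]
    exact hn
  have h2 : ι y - (n : Ω) = ι (y - (n : ℚ_[p])) := by
    rw [map_sub, map_natCast]
  rw [h2, PadicAlgCl.norm_extends]
  exact h1

theorem norm_algebraMap (y : ℚ_[p]) : ‖ι y‖ = ‖y‖ := PadicAlgCl.norm_extends p y

/-- The residue of a `p`-adic integer is fixed by the Frobenius. -/
theorem residue_pow_prime_of_padic (y : ℚ_[p]) (hy : ‖y‖ ≤ 1) :
    residue (padicIntegers p) (toInt (ι y) ((norm_algebraMap y).le.trans hy)) ^ p =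
      residue (padicIntegers p) (toInt (ι y) ((norm_algebraMap y).le.trans hy)) := by
  obtain ⟨m, hm⟩ := exists_natCast_near y hy
  have h1 : residue (padicIntegers p) (toInt (ι y) ((norm_algebraMap y).le.trans hy)) =
      ((m : ℕ) : Kappa p) := by
    rw [← map_natCast (residue (padicIntegers p)), residue_eq_iff_norm]
    simpa using hm
  rw [h1, natCast_pow_prime]

/-! ### `ζ` is not congruent to a `p`-adic number -/

theorem one_le_norm_zeta_sub (u : ℚ_[p]) : 1 ≤ ‖D.ζ - ι u‖ := by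
  rcases le_or_gt ‖u‖ 1 with hu | hu
  · by_contra hlt
    rw [not_le] at hlt
    have h1 : zb D = residue (padicIntegers p) (toInt (ι u) ((norm_algebraMap u).le.trans hu)) := by
      rw [zb, residue_eq_iff_norm]
      exact hlt
    apply zb_pow_prime_ne D
    rw [h1, residue_pow_prime_of_padic u hu]
  · have hne : ‖D.ζ‖ ≠ ‖-ι u‖ := by
      rw [norm_neg, norm_algebraMap, norm_zeta]
      exact hu.ne
    rw [sub_eq_add_neg, IsUltrametricDist.norm_add_eq_max_of_norm_ne_norm hne, norm_zeta]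
    exact le_max_left _ _

theorem zeta_not_mem_bot : D.ζ ∉ (⊥ : IntermediateField ℚ_[p] (PadicAlgCl p)) := by
  intro h
  obtain ⟨u, hu⟩ := IntermediateField.mem_bot.1 h
  have := one_le_norm_zeta_sub D u
  rw [hu, sub_self, norm_zero] at this
  linarith

/-! ### The Gauss norm on `K0` -/

theorem norm_add_mul_zeta (a b : ℚ_[p]) : ‖ι a + ι b * D.ζ‖ = max ‖a‖ ‖b‖ := by
  rcases eq_or_ne b 0 with rfl | hb
  · rw [map_zero, zero_mul, add_zero, norm_algebraMap, norm_zero, max_eq_left (norm_nonneg _)]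
  have hb' : ι b ≠ 0 := by rwa [Ne, map_eq_zero]
  set u : ℚ_[p] := -a / b with hu
  have h1 : ι a + ι b * D.ζ = ι b * (D.ζ - ι u) := by
    rw [hu, map_div₀, map_neg]
    field_simp
    ring
  have hua : ‖u‖ * ‖b‖ = ‖a‖ := by
    rw [hu, norm_div, norm_neg, div_mul_cancel₀ _ (norm_ne_zero_iff.2 hb)]
  rw [h1, norm_mul, norm_algebraMap]
  rcases le_or_gt ‖u‖ 1 with hu1 | hu1
  · have h2 : ‖D.ζ - ι u‖ = 1 := by
      refine le_antisymm ?_ (one_le_norm_zeta_sub D u)
      refine (norm_sub_le_max _ _).trans ?_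
      rw [norm_zeta, norm_algebraMap]
      exact max_le le_rfl hu1
    rw [h2, mul_one, max_eq_right]
    rw [← hua]
    exact mul_le_of_le_one_left (norm_nonneg _) hu1
  · have hne : ‖D.ζ‖ ≠ ‖-ι u‖ := by
      rw [norm_neg, norm_algebraMap, norm_zeta]
      exact hu1.ne
    rw [sub_eq_add_neg, IsUltrametricDist.norm_add_eq_max_of_norm_ne_norm hne, norm_zeta, norm_neg,
      norm_algebraMap, max_eq_right hu1.le, mul_comm, hua, max_eq_left]
    rw [← hua]
    exact le_mul_of_one_le_left (norm_nonneg _) hu1.le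

/-! ### Normal form of the elements of `K0` -/

/-- The unramified quadratic extension `ℚ_p(ζ) = ℚ_{p²}`. -/
noncomputable def K0 : IntermediateField ℚ_[p] (PadicAlgCl p) :=
  IntermediateField.adjoin ℚ_[p] {D.ζ}

theorem zeta_mem_K0 : D.ζ ∈ K0 D := IntermediateField.mem_adjoin_simple_self _ _

theorem algebraMap_mem_K0 (a : ℚ_[p]) : ι a ∈ K0 D := (K0 D).algebraMap_mem a

/-- The quadratic polynomial of `ζ` over `ℚ_p`. -/
theorem exists_quadratic : ∃ q : ℚ_[p][X], q.Monic ∧ q.natDegree = 2 ∧ aeval D.ζ q = 0 ∧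
    aeval (D.ζ ^ p) q = 0 := by
  obtain ⟨a, ha⟩ := IntermediateField.mem_bot.1 (zeta_add_zeta_pow_mem_bot D)
  obtain ⟨b, hb⟩ := IntermediateField.mem_bot.1 (zeta_pow_succ_mem_bot D)
  refine ⟨X ^ 2 - C a * X + C b, ?_, ?_, ?_, ?_⟩
  · have : (X ^ 2 - C a * X + C b : ℚ_[p][X]) = X ^ 2 + (-(C a) * X + C b) := by ring
    rw [this]
    apply Polynomial.monic_X_pow_add
    have h1 : (-(C a) * X + C b : ℚ_[p][X]).degree ≤ 1 := by
      rw [← C_neg]
      exact Polynomial.degree_linear_le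
    exact lt_of_le_of_lt h1 (by norm_num)
  · have : (X ^ 2 - C a * X + C b : ℚ_[p][X]) = X ^ 2 + (-(C a) * X + C b) := by ring
    rw [this]
    have h1 : (-(C a) * X + C b : ℚ_[p][X]).degree ≤ 1 := by
      rw [← C_neg]
      exact Polynomial.degree_linear_le
    have h2 : (-(C a) * X + C b : ℚ_[p][X]).degree < ((2 : ℕ) : WithBot ℕ) :=
      lt_of_le_of_lt h1 (by norm_num)
    rw [Polynomial.natDegree_add_eq_left_of_degree_lt, natDegree_X_pow]
    rw [degree_X_pow]
    exact h2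
  · simp only [map_add, map_sub, map_mul, map_pow, aeval_X, aeval_C]
    rw [ha, hb]
    ring
  · simp only [map_add, map_sub, map_mul, map_pow, aeval_X, aeval_C]
    rw [ha, hb]
    ring

theorem exists_eq_add_mul_zeta {x : PadicAlgCl p} (hx : x ∈ K0 D) :
    ∃ a b : ℚ_[p], x = ι a + ι b * D.ζ := by
  have halg : IsAlgebraic ℚ_[p] D.ζ := Algebra.IsAlgebraic.isAlgebraic _
  have h1 : x ∈ (K0 D).toSubalgebra := hx
  rw [K0, IntermediateField.adjoin_simple_toSubalgebra_of_isAlgebraic halg,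
    Algebra.adjoin_singleton_eq_range_aeval] at h1
  obtain ⟨f, rfl⟩ := h1
  obtain ⟨q, hqm, hq2, hq0, -⟩ := exists_quadratic D
  have hq1 : q ≠ 1 := by
    intro h
    rw [h, natDegree_one] at hq2
    exact absurd hq2 (by norm_num)
  have hlt : (f %ₘ q).natDegree < 2 := by
    rw [← hq2]
    exact natDegree_modByMonic_lt f hqm hq1
  have hdecomp := modByMonic_add_div f q
  have h2 : aeval D.ζ f = aeval D.ζ (f %ₘ q) := by
    conv_lhs => rw [← hdecomp]
    rw [map_add, map_mul, hq0, zero_mul, add_zero]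
  have h3 : f %ₘ q = C ((f %ₘ q).coeff 1) * X + C ((f %ₘ q).coeff 0) :=
    Polynomial.eq_X_add_C_of_natDegree_le_one (by omega)
  refine ⟨(f %ₘ q).coeff 0, (f %ₘ q).coeff 1, ?_⟩
  show aeval D.ζ f = _
  rw [h2]
  conv_lhs => rw [h3]
  simp only [map_add, map_mul, aeval_X, aeval_C]
  ring

/-- The value group of `K0` is `p^ℤ`. -/
theorem norm_mem_K0 {x : PadicAlgCl p} (hx : x ∈ K0 D) (hx0 : x ≠ 0) :
    ∃ m : ℤ, ‖x‖ = (p : ℝ) ^ m := by
  obtain ⟨a, b, rfl⟩ := exists_eq_add_mul_zeta D hx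
  rw [norm_add_mul_zeta]
  rcases le_total ‖a‖ ‖b‖ with h | h
  · rw [max_eq_right h]
    have hb : b ≠ 0 := by
      rintro rfl
      rw [norm_zero] at h
      have : a = 0 := norm_le_zero_iff.1 h
      rw [this] at hx0
      simp at hx0
    exact ⟨-b.valuation, Padic.norm_eq_zpow_neg_valuation hb⟩
  · rw [max_eq_left h]
    have ha : a ≠ 0 := by
      rintro rfl
      rw [norm_zero] at h
      have : b = 0 := norm_le_zero_iff.1 h
      rw [this] at hx0
      simp at hx0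
    exact ⟨-a.valuation, Padic.norm_eq_zpow_neg_valuation ha⟩

/-- The unit residue classes of `K0` are the powers of `ζ`. -/
theorem exists_norm_sub_zeta_pow_lt_one_of_mem_K0 {x : PadicAlgCl p} (hx : x ∈ K0 D)
    (hx1 : ‖x‖ = 1) : ∃ j : ℕ, j < p ^ 2 - 1 ∧ ‖x - D.ζ ^ j‖ < 1 := by
  obtain ⟨a, b, rfl⟩ := exists_eq_add_mul_zeta D hx
  rw [norm_add_mul_zeta] at hx1
  have ha : ‖a‖ ≤ 1 := hx1 ▸ le_max_left _ _
  have hb : ‖b‖ ≤ 1 := hx1 ▸ le_max_right _ _
  have hxn : ‖ι a + ι b * D.ζ‖ ≤ 1 := by rw [norm_add_mul_zeta, hx1]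
  -- the residue of `x`
  set A := residue (padicIntegers p) (toInt (ι a) ((norm_algebraMap a).le.trans ha)) with hA
  set B := residue (padicIntegers p) (toInt (ι b) ((norm_algebraMap b).le.trans hb)) with hB
  have hAp : A ^ p = A := residue_pow_prime_of_padic a ha
  have hBp : B ^ p = B := residue_pow_prime_of_padic b hb
  have hc : residue (padicIntegers p) (toInt (ι a + ι b * D.ζ) hxn) = A + B * zb D := by
    rw [hA, hB, zb, ← map_mul, ← map_add]
    rfl
  set c := residue (padicIntegers p) (toInt (ι a + ι b * D.ζ) hxn) with hcdef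
  have hcp2 : c ^ (p ^ 2) = c := by
    rw [hc, sq, pow_mul, add_pow_char, mul_pow, hAp, hBp, add_pow_char, mul_pow, hAp, hBp,
      ← pow_mul, ← sq, zb_pow_sq]
  have hc0 : c ≠ 0 := by
    rw [hcdef, Ne, residue_eq_zero_iff']
    show ¬ ‖ι a + ι b * D.ζ‖ < 1
    rw [norm_add_mul_zeta, hx1]
    exact lt_irrefl _
  have hcn : c ^ (p ^ 2 - 1) = 1 := by
    have h1 : c ^ (p ^ 2 - 1) * c = c := by rw [← pow_succ, sq_sub_one_add_one, hcp2]
    exact mul_right_cancel₀ hc0 (by rw [h1, one_mul])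
  obtain ⟨j, hj, hjc⟩ := (isPrimitiveRoot_zb D).eq_pow_of_pow_eq_one hcn
  refine ⟨j, hj, ?_⟩
  rw [zb_pow, hcdef, residue_eq_iff_norm] at hjc
  rw [norm_sub_rev]
  exact hjc

end Fermat.Agent.TW.K1
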