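import Mathlib
import Fermat.Agent.TW.K1.Gauss0

/-!
# S56 sprint, K1 BRIDGE (4): the tame field `K1 = ℚ_p(ζ, π) = K0(π)`

* `exists_eq_sum_mul_pi_pow` : every element of `K1` is `∑_{i < e} c_i π^i`, `c_i ∈ K0`,
  `e = p² - 1`;
* `norm_mul_pi_pow_le_norm_sum` : Gauss norm, `‖c_i‖ ‖π‖^i ≤ ‖∑ c_i π^i‖`;
* `norm_mem_K1` : the value group of `K1` is `‖π‖^ℤ`;
* `norm_lt_one_or_exists_zeta_pow` : the residue classes of `K1` are `0` and the powers of `ζ`.

Branch-only work.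
-/

set_option autoImplicit false
set_option linter.style.haveILetI false
set_option linter.dupNamespace false

namespace Fermat.Agent.TW.K1

open scoped NNReal
open IsLocalRing Polynomial

variable {p : ℕ} [hp : Fact p.Prime] (D : TameData p)

local notation "Ω" => PadicAlgCl p
local notation "ι" => algebraMap ℚ_[p] (PadicAlgCl p)
local notation "e" => p ^ 2 - 1

/-- The tame field `K1 = ℚ_p(ζ, π)`. -/
noncomputable def K1 : IntermediateField ℚ_[p] (PadicAlgCl p) :=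
  IntermediateField.adjoin ℚ_[p] {D.ζ, D.π}

theorem zeta_mem_K1 : D.ζ ∈ K1 D :=
  IntermediateField.subset_adjoin _ _ (Set.mem_insert _ _)

theorem pi_mem_K1 : D.π ∈ K1 D :=
  IntermediateField.subset_adjoin _ _ (Set.mem_insert_of_mem _ rfl)

theorem K0_le_K1 : K0 D ≤ K1 D := by
  rw [K0, IntermediateField.adjoin_le_iff]
  rintro _ rfl
  exact zeta_mem_K1 D

/-! ### Normal form -/

theorem exists_eq_sum_mul_pi_pow {x : PadicAlgCl p} (hx : x ∈ K1 D) :
    ∃ c : Fin e → PadicAlgCl p, (∀ i, c i ∈ K0 D) ∧ x = ∑ i, c i * D.π ^ (i : ℕ) := by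
  -- `K1 ≤ K0(π)`
  have hmem : ∀ y ∈ K1 D, y ∈ IntermediateField.adjoin (K0 D) {D.π} := by
    intro y hy
    rw [K1] at hy
    induction hy using IntermediateField.adjoin_induction with
    | mem y hy =>
      rcases hy with hy | hy
      · have hy' : y = D.ζ := hy
        rw [hy']
        have h := (IntermediateField.adjoin (K0 D) {D.π}).algebraMap_mem
          (⟨D.ζ, zeta_mem_K0 D⟩ : K0 D)
        exact h
      · have hy' : y = D.π := hy
        rw [hy']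
        exact IntermediateField.mem_adjoin_simple_self _ _
    | algebraMap r =>
      have h := (IntermediateField.adjoin (K0 D) {D.π}).algebraMap_mem
        (algebraMap ℚ_[p] (K0 D) r)
      exact h
    | add y z _ _ hy hz => exact add_mem hy hz
    | inv y _ hy => exact inv_mem hy
    | mul y z _ _ hy hz => exact mul_mem hy hz
  have h1 : x ∈ (IntermediateField.adjoin (K0 D) {D.π}).toSubalgebra := hmem x hx
  have halg : IsAlgebraic (K0 D) D.π := Algebra.IsAlgebraic.isAlgebraic _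
  rw [IntermediateField.adjoin_simple_toSubalgebra_of_isAlgebraic halg,
    Algebra.adjoin_singleton_eq_range_aeval] at h1
  obtain ⟨f, rfl⟩ := h1
  -- reduce modulo `X^e + p`
  set Q : (K0 D)[X] := X ^ e + C ((p : ℕ) : K0 D) with hQ
  have hQm : Q.Monic := monic_X_pow_add_C _ (sq_sub_one_pos p).ne'
  have hQd : Q.natDegree = e := natDegree_X_pow_add_C
  have hQ0 : aeval D.π Q = 0 := by
    rw [hQ, map_add, map_pow, aeval_X, aeval_C, D.hπ, map_natCast, neg_add_cancel]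
  have hQ1 : Q ≠ 1 := by
    intro h
    rw [h, natDegree_one] at hQd
    exact (sq_sub_one_pos p).ne hQd
  have hlt : (f %ₘ Q).natDegree < e := by
    rw [← hQd]
    exact natDegree_modByMonic_lt f hQm hQ1
  have hdecomp := modByMonic_add_div f Q
  have h2 : aeval D.π f = aeval D.π (f %ₘ Q) := by
    conv_lhs => rw [← hdecomp]
    rw [map_add, map_mul, hQ0, zero_mul, add_zero]
  refine ⟨fun i => (((f %ₘ Q).coeff (i : ℕ) : K0 D) : PadicAlgCl p), fun i => Subtype.mem _, ?_⟩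
  show aeval D.π f = _
  rw [h2, aeval_eq_sum_range' hlt, Finset.sum_range]
  refine Finset.sum_congr rfl fun i _ => ?_
  rw [Algebra.smul_def]
  rfl

/-! ### Norms of the monomials `c π^i` -/

theorem natCast_prime_pos : (0 : ℝ) < p := by exact_mod_cast hp.out.pos

theorem natCast_prime_ne_one : (p : ℝ) ≠ 1 := by exact_mod_cast hp.out.one_lt.ne'

/-- `‖c π^i‖^e = p^(m e - i)` for `c ∈ K0` nonzero, `‖c‖ = p^m`. -/
theorem exists_norm_term_pow {c : PadicAlgCl p} (hc : c ∈ K0 D) (hc0 : c ≠ 0) (i : ℕ) :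
    ∃ m : ℤ, ‖c * D.π ^ i‖ ^ e = (p : ℝ) ^ (m * (e : ℕ) - i) := by
  obtain ⟨m, hm⟩ := norm_mem_K0 D hc hc0
  refine ⟨m, ?_⟩
  rw [norm_mul, norm_pow, mul_pow, hm, ← pow_mul, mul_comm i, pow_mul, norm_pi_pow,
    zpow_sub₀ natCast_prime_pos.ne', zpow_mul, zpow_natCast, zpow_natCast, inv_pow, div_eq_mul_inv]

theorem term_index_eq {c c' : PadicAlgCl p} (hc : c ∈ K0 D) (hc0 : c ≠ 0) (hc' : c' ∈ K0 D)
    (hc0' : c' ≠ 0) {i j : ℕ} (hi : i < e) (hj : j < e)
    (h : ‖c * D.π ^ i‖ = ‖c' * D.π ^ j‖) : i = j := by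
  obtain ⟨m, hm⟩ := exists_norm_term_pow D hc hc0 i
  obtain ⟨m', hm'⟩ := exists_norm_term_pow D hc' hc0' j
  rw [h, hm'] at hm
  have h1 := zpow_right_injective₀ (natCast_prime_pos (p := p)) natCast_prime_ne_one hm
  have h2 : (m' - m) * ((e : ℕ) : ℤ) = (j : ℤ) - i := by linarith
  have hi' : ((i : ℕ) : ℤ) < ((e : ℕ) : ℤ) := by exact_mod_cast hi
  have hj' : ((j : ℕ) : ℤ) < ((e : ℕ) : ℤ) := by exact_mod_cast hj
  have hi0 : (0 : ℤ) ≤ i := Int.natCast_nonneg i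
  have hj0 : (0 : ℤ) ≤ j := Int.natCast_nonneg j
  have hmm : m' - m = 0 := by
    by_contra hne
    rcases lt_or_gt_of_ne hne with hneg | hpos
    · have : (m' - m) * ((e : ℕ) : ℤ) ≤ -((e : ℕ) : ℤ) := by nlinarith
      linarith
    · have : ((e : ℕ) : ℤ) ≤ (m' - m) * ((e : ℕ) : ℤ) := by nlinarith
      linarith
  rw [hmm, zero_mul] at h2
  have : (j : ℤ) = i := by linarith
  exact_mod_cast this.symm

theorem norm_term_ne_one {c : PadicAlgCl p} (hc : c ∈ K0 D) (hc0 : c ≠ 0) {i : ℕ} (hi0 : 0 < i)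
    (hi : i < e) : ‖c * D.π ^ i‖ ≠ 1 := by
  intro h
  have h1 : ‖c * D.π ^ i‖ = ‖(1 : PadicAlgCl p) * D.π ^ 0‖ := by
    rw [h, pow_zero, mul_one, norm_one]
  have := term_index_eq D hc hc0 (K0 D).one_mem one_ne_zero hi (sq_sub_one_pos p) h1
  omega

/-! ### The Gauss norm -/

theorem norm_mul_pi_pow_le_norm_sum (c : Fin e → PadicAlgCl p) (hc : ∀ i, c i ∈ K0 D)
    (i : Fin e) : ‖c i * D.π ^ (i : ℕ)‖ ≤ ‖∑ j, c j * D.π ^ (j : ℕ)‖ := by
  classical
  set f : Fin e → PadicAlgCl p := fun j => c j * D.π ^ (j : ℕ) with hf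
  set s : Finset (Fin e) := Finset.univ.filter fun j => c j ≠ 0 with hs
  have hsum : ∑ j ∈ s, f j = ∑ j, f j := by
    apply Finset.sum_filter_of_ne
    intro j _ hj hcj
    apply hj
    rw [hf]
    simp only
    rw [hcj, zero_mul]
  have hpair : (s : Set (Fin e)).Pairwise fun j k => ‖f j‖₊ ≠ ‖f k‖₊ := by
    intro j hj k hk hjk h
    rw [Finset.mem_coe, hs, Finset.mem_filter] at hj hk
    apply hjk
    apply Fin.ext
    apply term_index_eq D (hc j) hj.2 (hc k) hk.2 j.2 k.2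
    have := congrArg (fun t : ℝ≥0 => (t : ℝ)) h
    exact this
  have hsup := IsUltrametricDist.nnnorm_sum_eq_sup_of_pairwise_ne hpair
  rw [hsum] at hsup
  by_cases hci : c i = 0
  · rw [hci, zero_mul, norm_zero]
    exact norm_nonneg _
  · have hi : i ∈ s := by
      rw [hs, Finset.mem_filter]
      exact ⟨Finset.mem_univ _, hci⟩
    have h1 : ‖f i‖₊ ≤ ‖∑ j, f j‖₊ := by
      rw [hsup]
      exact Finset.le_sup (f := fun j => ‖f j‖₊) hi
    exact h1

/-- The norm of a nonzero sum is the norm of one of its monomials. -/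
theorem exists_norm_sum_eq (c : Fin e → PadicAlgCl p) (hc : ∀ i, c i ∈ K0 D)
    (h0 : ∑ j, c j * D.π ^ (j : ℕ) ≠ 0) :
    ∃ i : Fin e, c i ≠ 0 ∧ ‖∑ j, c j * D.π ^ (j : ℕ)‖ = ‖c i * D.π ^ (i : ℕ)‖ := by
  haveI : Nonempty (Fin e) := ⟨⟨0, sq_sub_one_pos p⟩⟩
  obtain ⟨i, -, hi⟩ := IsUltrametricDist.exists_norm_finsetSum_le Finset.univ
    fun j => c j * D.π ^ (j : ℕ)
  have hle := norm_mul_pi_pow_le_norm_sum D c hc i
  refine ⟨i, ?_, le_antisymm hi hle⟩
  intro hci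
  rw [hci, zero_mul, norm_zero] at hi
  exact h0 (norm_le_zero_iff.1 hi)

/-- The value group of `K1` is `‖π‖^ℤ`. -/
theorem norm_mem_K1 {x : PadicAlgCl p} (hx : x ∈ K1 D) (hx0 : x ≠ 0) :
    ∃ m : ℤ, ‖x‖ = ‖D.π‖ ^ m := by
  obtain ⟨c, hc, rfl⟩ := exists_eq_sum_mul_pi_pow D hx
  obtain ⟨i, hci, hi⟩ := exists_norm_sum_eq D c hc hx0
  obtain ⟨m, hm⟩ := norm_mem_K0 D (hc i) hci
  refine ⟨-(m * ((e : ℕ) : ℤ)) + (i : ℕ), ?_⟩
  have hπ0 : ‖D.π‖ ≠ 0 := (norm_pi_pos D).ne'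
  rw [hi, norm_mul, norm_pow, hm, zpow_add₀ hπ0, zpow_natCast, zpow_neg, zpow_mul', zpow_natCast,
    norm_pi_pow, inv_zpow, inv_inv]

/-- The residue classes of `K1` are `0` and the powers of `ζ`. -/
theorem norm_lt_one_or_exists_zeta_pow {x : PadicAlgCl p} (hx : x ∈ K1 D) (hx1 : ‖x‖ ≤ 1) :
    ‖x‖ < 1 ∨ ∃ j : ℕ, j < e ∧ ‖x - D.ζ ^ j‖ < 1 := by
  classical
  rcases lt_or_eq_of_le hx1 with h | h
  · exact Or.inl h
  right
  obtain ⟨c, hc, rfl⟩ := exists_eq_sum_mul_pi_pow D hx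
  set i0 : Fin e := ⟨0, sq_sub_one_pos p⟩ with hi0
  -- the monomials of positive degree have norm `< 1`
  have hsmall : ∀ j : Fin e, j ≠ i0 → ‖c j * D.π ^ (j : ℕ)‖ < 1 := by
    intro j hj
    have hle := (norm_mul_pi_pow_le_norm_sum D c hc j).trans_eq h
    rcases lt_or_eq_of_le hle with h' | h'
    · exact h'
    · exfalso
      have hcj : c j ≠ 0 := by
        intro h0
        rw [h0, zero_mul, norm_zero] at h'
        exact zero_ne_one h'
      have hjpos : 0 < (j : ℕ) := by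
        rcases Nat.eq_zero_or_pos (j : ℕ) with h0 | h0
        · exact absurd (Fin.ext h0) hj
        · exact h0
      exact norm_term_ne_one D (hc j) hcj hjpos j.2 h'
  have hsplit : ∑ j, c j * D.π ^ (j : ℕ) =
      c i0 + ∑ j ∈ Finset.univ.erase i0, c j * D.π ^ (j : ℕ) := by
    rw [← Finset.add_sum_erase _ _ (Finset.mem_univ i0)]
    simp [hi0]
  have hrest : ‖∑ j ∈ Finset.univ.erase i0, c j * D.π ^ (j : ℕ)‖ < 1 := by
    haveI : Nonempty (Fin e) := ⟨i0⟩
    obtain ⟨j, hjmem, hj⟩ := IsUltrametricDist.exists_norm_finsetSum_le (Finset.univ.erase i0)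
      fun j => c j * D.π ^ (j : ℕ)
    rcases (Finset.univ.erase i0).eq_empty_or_nonempty with hemp | hne
    · rw [hemp, Finset.sum_empty, norm_zero]
      exact one_pos
    · exact hj.trans_lt (hsmall j (Finset.ne_of_mem_erase (hjmem hne)))
  have hc0 : ‖c i0‖ = 1 := by
    have h1 : c i0 = (∑ j, c j * D.π ^ (j : ℕ)) -
        ∑ j ∈ Finset.univ.erase i0, c j * D.π ^ (j : ℕ) := by
      rw [hsplit]
      ring
    have hne : ‖∑ j, c j * D.π ^ (j : ℕ)‖ ≠
        ‖-∑ j ∈ Finset.univ.erase i0, c j * D.π ^ (j : ℕ)‖ := by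
      rw [norm_neg, h]
      exact hrest.ne'
    rw [h1, sub_eq_add_neg, IsUltrametricDist.norm_add_eq_max_of_norm_ne_norm hne, norm_neg, h,
      max_eq_left hrest.le]
  obtain ⟨j, hj, hjlt⟩ := exists_norm_sub_zeta_pow_lt_one_of_mem_K0 D (hc i0) hc0
  refine ⟨j, hj, ?_⟩
  have h2 : (∑ j, c j * D.π ^ (j : ℕ)) - D.ζ ^ j =
      (c i0 - D.ζ ^ j) + ∑ j ∈ Finset.univ.erase i0, c j * D.π ^ (j : ℕ) := by
    rw [hsplit]
    ring
  rw [h2]
  exact (IsUltrametricDist.norm_add_le_max _ _).trans_lt (max_lt hjlt hrest)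

end Fermat.Agent.TW.K1
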