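import Mathlib
import Fermat.Agent.TW.K1.Gauss1

/-!
# S56 sprint, K1 BRIDGE (5): the operators `τ`, `φ` on the tame field `K1 = ℚ_p(ζ, π)`

* `exists_tau` : `∃ τ ∈ Gal(Ω/ℚ_p), τ ζ = ζ ∧ τ π = ζ π`;
* `exists_phi` : `∃ φ ∈ Gal(Ω/ℚ_p), φ ζ = ζ^p ∧ φ π = π`;
* `map_mem_K1` : `K1` is stable under `Gal(Ω/ℚ_p)`; `normal_fixingSubgroup_K1`;
* `mem_fixingSubgroup_K1_iff` : `σ` fixes `K1` iff it fixes `ζ` and `π`;
* `phi_tau_relation` : `φ τ φ⁻¹ τ^(-p)` fixes `K1`;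
* `mem_K1_of_fixed` : elements fixed by `Gal(Ω/K1)` lie in `K1`.

Branch-only work.
-/

set_option autoImplicit false
set_option linter.style.haveILetI false
set_option linter.dupNamespace false

namespace Fermat.Agent.TW.K1

open scoped NNReal
open IsLocalRing Polynomial

variable {p : ℕ} [hp : Fact p.Prime] (D : TameData p)

local notation "Ω" => PadicAlgCl p
local notation "ι" => algebraMap ℚ_[p] (PadicAlgCl p)
local notation "e" => p ^ 2 - 1
local notation "G" => (PadicAlgCl p ≃ₐ[ℚ_[p]] PadicAlgCl p)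

/-! ### `τ` -/

theorem natDegree_minpoly_pi : e ≤ (minpoly (K0 D) D.π).natDegree := by
  by_contra hlt
  rw [not_le] at hlt
  have hint : IsIntegral (K0 D) D.π := Algebra.IsIntegral.isIntegral _
  set f := minpoly (K0 D) D.π with hf
  have h0 : aeval D.π f = 0 := minpoly.aeval _ _
  rw [aeval_eq_sum_range' hlt, Finset.sum_range] at h0
  set c : Fin e → PadicAlgCl p := fun i => ((f.coeff (i : ℕ) : K0 D) : PadicAlgCl p) with hc
  have h1 : ∑ i : Fin e, c i * D.π ^ (i : ℕ) = 0 := by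
    rw [← h0]
    refine Finset.sum_congr rfl fun i _ => ?_
    rw [Algebra.smul_def]
    rfl
  have h2 := norm_mul_pi_pow_le_norm_sum D c (fun i => Subtype.mem _) ⟨f.natDegree, hlt⟩
  rw [h1, norm_zero] at h2
  have h3 : c ⟨f.natDegree, hlt⟩ * D.π ^ f.natDegree = 0 := norm_le_zero_iff.1 h2
  have h4 : c ⟨f.natDegree, hlt⟩ = 1 := by
    rw [hc]
    simp only
    have : f.coeff f.natDegree = 1 := (minpoly.monic hint).coeff_natDegree
    rw [this]
    rfl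
  rw [h4, one_mul] at h3
  exact pow_ne_zero _ (pi_ne_zero D) h3

theorem minpoly_pi : minpoly (K0 D) D.π = X ^ e + C ((p : ℕ) : K0 D) := by
  have hint : IsIntegral (K0 D) D.π := Algebra.IsIntegral.isIntegral _
  set Q : (K0 D)[X] := X ^ e + C ((p : ℕ) : K0 D) with hQ
  have hQm : Q.Monic := monic_X_pow_add_C _ (sq_sub_one_pos p).ne'
  have hQd : Q.natDegree = e := natDegree_X_pow_add_C
  have hQ0 : aeval D.π Q = 0 := by
    rw [hQ, map_add, map_pow, aeval_X, aeval_C, D.hπ, map_natCast, neg_add_cancel]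
  have hdvd : minpoly (K0 D) D.π ∣ Q := minpoly.dvd _ _ hQ0
  exact (eq_of_monic_of_dvd_of_natDegree_le (minpoly.monic hint) hQm hdvd
    (hQd.le.trans (natDegree_minpoly_pi D))).symm

theorem exists_tau : ∃ τ : G, τ D.ζ = D.ζ ∧ τ D.π = D.ζ * D.π := by
  haveI : IsAlgClosure (K0 D) (PadicAlgCl p) := ⟨inferInstance, inferInstance⟩
  haveI : Normal (K0 D) (PadicAlgCl p) := IsAlgClosure.normal _ _
  have halg : IsAlgebraic (K0 D) D.π := Algebra.IsAlgebraic.isAlgebraic _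
  have hroot : aeval (D.ζ * D.π) (minpoly (K0 D) D.π) = 0 := by
    rw [minpoly_pi, map_add, map_pow, aeval_X, aeval_C, mul_pow, zeta_pow_eq_one, one_mul, D.hπ,
      map_natCast, neg_add_cancel]
  obtain ⟨τ₀, hτ₀⟩ := minpoly.exists_algEquiv_of_root' halg hroot
  refine ⟨τ₀.restrictScalars ℚ_[p], ?_, hτ₀⟩
  exact τ₀.commutes ⟨D.ζ, zeta_mem_K0 D⟩

/-! ### `φ` -/

theorem minpoly_zeta_root : aeval (D.ζ ^ p) (minpoly ℚ_[p] D.ζ) = 0 := by
  have hint : IsIntegral ℚ_[p] D.ζ := Algebra.IsIntegral.isIntegral _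
  obtain ⟨q, hqm, hq2, hq0, hqp⟩ := exists_quadratic D
  have hdvd : minpoly ℚ_[p] D.ζ ∣ q := minpoly.dvd _ _ hq0
  have hdeg : 2 ≤ (minpoly ℚ_[p] D.ζ).natDegree := by
    have hpos := minpoly.natDegree_pos hint
    have hne : (minpoly ℚ_[p] D.ζ).natDegree ≠ 1 := by
      intro h1
      rw [minpoly.natDegree_eq_one_iff] at h1
      obtain ⟨u, hu⟩ := h1
      exact zeta_not_mem_bot D (IntermediateField.mem_bot.2 ⟨u, hu⟩)
    omega
  have := eq_of_monic_of_dvd_of_natDegree_le (minpoly.monic hint) hqm hdvd (hq2.le.trans hdeg)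
  rw [← this]
  exact hqp

theorem exists_sigma : ∃ σ : G, σ D.ζ = D.ζ ^ p := by
  have halg : IsAlgebraic ℚ_[p] D.ζ := Algebra.IsAlgebraic.isAlgebraic _
  exact minpoly.exists_algEquiv_of_root' halg (minpoly_zeta_root D)

/-- Every automorphism multiplies `π` by a power of `ζ`. -/
theorem exists_map_pi (σ : G) : ∃ j : ℕ, j < e ∧ σ D.π = D.ζ ^ j * D.π := by
  have h1 : (σ D.π / D.π) ^ e = 1 := by
    rw [div_pow, ← map_pow, D.hπ, map_neg, map_natCast, div_self]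
    rw [neg_ne_zero]
    exact Nat.cast_ne_zero.2 hp.out.ne_zero
  obtain ⟨j, hj, hjz⟩ := D.hζ.eq_pow_of_pow_eq_one h1
  refine ⟨j, hj, ?_⟩
  rw [hjz, div_mul_cancel₀ _ (pi_ne_zero D)]

theorem pow_apply_zeta {τ : G} (hτ : τ D.ζ = D.ζ) (m : ℕ) : (τ ^ m) D.ζ = D.ζ := by
  induction m with
  | zero => rfl
  | succ m ih => rw [pow_succ', AlgEquiv.mul_apply, ih, hτ]

theorem pow_apply_pi {τ : G} (hτ : τ D.ζ = D.ζ ∧ τ D.π = D.ζ * D.π) (m : ℕ) :
    (τ ^ m) D.π = D.ζ ^ m * D.π := by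
  induction m with
  | zero => rw [pow_zero, pow_zero, one_mul]; rfl
  | succ m ih =>
    rw [pow_succ', AlgEquiv.mul_apply, ih, map_mul, map_pow, hτ.1, hτ.2, pow_succ]
    ring

theorem exists_phi : ∃ φ : G, φ D.ζ = D.ζ ^ p ∧ φ D.π = D.π := by
  obtain ⟨τ, hτ⟩ := exists_tau D
  obtain ⟨σ, hσ⟩ := exists_sigma D
  obtain ⟨j, hj, hjπ⟩ := exists_map_pi D σ
  refine ⟨τ ^ (e - j) * σ, ?_, ?_⟩
  · rw [AlgEquiv.mul_apply, hσ, map_pow, pow_apply_zeta D hτ.1]
  · rw [AlgEquiv.mul_apply, hjπ, map_mul, map_pow, pow_apply_zeta D hτ.1, pow_apply_pi D hτ,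
      ← mul_assoc, ← pow_add, Nat.add_sub_cancel' hj.le, zeta_pow_eq_one, one_mul]

/-! ### Stability of `K1`, the subgroup `H` -/

theorem map_mem_K1 (σ : G) {x : PadicAlgCl p} (hx : x ∈ K1 D) : σ x ∈ K1 D := by
  rw [K1] at hx
  induction hx using IntermediateField.adjoin_induction with
  | mem y hy =>
    rcases hy with hy | hy
    · have hy' : y = D.ζ := hy
      rw [hy']
      rcases map_zeta D σ with h | h
      · rw [h]; exact zeta_mem_K1 D
      · rw [h]; exact pow_mem (zeta_mem_K1 D) _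
    · have hy' : y = D.π := hy
      rw [hy']
      obtain ⟨j, -, hj⟩ := exists_map_pi D σ
      rw [hj]
      exact mul_mem (pow_mem (zeta_mem_K1 D) _) (pi_mem_K1 D)
  | algebraMap r => rw [σ.commutes]; exact (K1 D).algebraMap_mem r
  | add y z _ _ hy hz => rw [map_add]; exact add_mem hy hz
  | inv y _ hy => rw [map_inv₀]; exact inv_mem hy
  | mul y z _ _ hy hz => rw [map_mul]; exact mul_mem hy hz

theorem mem_fixingSubgroup_K1_iff (σ : G) :
    σ ∈ (K1 D).fixingSubgroup ↔ σ D.ζ = D.ζ ∧ σ D.π = D.π := by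
  rw [IntermediateField.mem_fixingSubgroup_iff]
  constructor
  · intro h
    exact ⟨h _ (zeta_mem_K1 D), h _ (pi_mem_K1 D)⟩
  · rintro ⟨h1, h2⟩ y hy
    rw [K1] at hy
    induction hy using IntermediateField.adjoin_induction with
    | mem y hy =>
      rcases hy with hy | hy
      · have hy' : y = D.ζ := hy
        rw [hy', h1]
      · have hy' : y = D.π := hy
        rw [hy', h2]
    | algebraMap r => exact σ.commutes r
    | add y z _ _ hy hz => rw [map_add, hy, hz]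
    | inv y _ hy => rw [map_inv₀, hy]
    | mul y z _ _ hy hz => rw [map_mul, hy, hz]

/-- Two automorphisms agreeing on `ζ` and `π` agree on `K1`. -/
theorem eq_on_K1 {σ σ' : G} (h1 : σ D.ζ = σ' D.ζ) (h2 : σ D.π = σ' D.π) {x : PadicAlgCl p}
    (hx : x ∈ K1 D) : σ x = σ' x := by
  have h : σ'⁻¹ * σ ∈ (K1 D).fixingSubgroup := by
    rw [mem_fixingSubgroup_K1_iff]
    constructor
    · rw [AlgEquiv.mul_apply, h1]
      exact σ'.symm_apply_apply _
    · rw [AlgEquiv.mul_apply, h2]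
      exact σ'.symm_apply_apply _
  have := (IntermediateField.mem_fixingSubgroup_iff _ _).1 h x hx
  rw [AlgEquiv.mul_apply] at this
  have h3 := congrArg σ' this
  rw [show σ' (σ'⁻¹ (σ x)) = σ x from σ'.apply_symm_apply _] at h3
  exact h3

theorem normal_fixingSubgroup_K1 : ((K1 D).fixingSubgroup).Normal := by
  constructor
  intro n hn g
  rw [IntermediateField.mem_fixingSubgroup_iff] at hn ⊢
  intro x hx
  rw [AlgEquiv.mul_apply, AlgEquiv.mul_apply, hn _ (map_mem_K1 D g⁻¹ hx)]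
  exact g.apply_symm_apply x

theorem mem_K1_of_fixed {x : PadicAlgCl p} (h : ∀ σ ∈ (K1 D).fixingSubgroup, σ x = x) :
    x ∈ K1 D := by
  rw [← InfiniteGalois.fixedField_fixingSubgroup (K1 D), IntermediateField.mem_fixedField_iff]
  exact h

/-- `φ τ φ⁻¹ ≡ τ^p` modulo `Gal(Ω/K1)`. -/
theorem phi_tau_relation {τ φ : G} (hτ : τ D.ζ = D.ζ ∧ τ D.π = D.ζ * D.π)
    (hφ : φ D.ζ = D.ζ ^ p ∧ φ D.π = D.π) :
    φ * τ * φ⁻¹ * (τ ^ p)⁻¹ ∈ (K1 D).fixingSubgroup := by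
  have hφinvζ : φ⁻¹ D.ζ = D.ζ ^ p := by
    have h1 : φ (D.ζ ^ p) = D.ζ := by rw [map_pow, hφ.1, ← pow_mul, ← sq, zeta_pow_sq]
    have h2 : φ⁻¹ (φ (D.ζ ^ p)) = D.ζ ^ p := φ.symm_apply_apply _
    rw [h1] at h2
    exact h2
  have hφinvπ : φ⁻¹ D.π = D.π := by
    conv_lhs => rw [← hφ.2]
    exact φ.symm_apply_apply _
  -- `φ τ φ⁻¹` and `τ^p` agree on `ζ` and `π`
  have h1 : (φ * τ * φ⁻¹) D.ζ = (τ ^ p) D.ζ := by
    rw [AlgEquiv.mul_apply, AlgEquiv.mul_apply, hφinvζ, map_pow, hτ.1, map_pow, hφ.1, ← pow_mul,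
      ← sq, zeta_pow_sq, pow_apply_zeta D hτ.1]
  have h2 : (φ * τ * φ⁻¹) D.π = (τ ^ p) D.π := by
    rw [AlgEquiv.mul_apply, AlgEquiv.mul_apply, hφinvπ, hτ.2, map_mul, hφ.1, hφ.2,
      pow_apply_pi D hτ]
  rw [IntermediateField.mem_fixingSubgroup_iff]
  intro x hx
  rw [AlgEquiv.mul_apply]
  have hy : (τ ^ p)⁻¹ x ∈ K1 D := map_mem_K1 D _ hx
  rw [eq_on_K1 D h1 h2 hy]
  exact (τ ^ p).apply_symm_apply x

end Fermat.Agent.TW.K1
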