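import Mathlib
import Fermat.Agent.TW.K1.Operators

/-!
# S56 sprint, K1 BRIDGE (5b): the degree of the tame field `K1 = ℚ_p(ζ, π)`

`[K1 : ℚ_p] = 2 (p² - 1)`, hence `Gal(ℚ̄_p / K1)` has index `2 (p² - 1)` in `Gal(ℚ̄_p / ℚ_p)`,
prime to `p` when `p` is odd.

Branch-only work.
-/

set_option autoImplicit false
set_option linter.style.haveILetI false
set_option linter.dupNamespace false

namespace Fermat.Agent.TW.K1

open scoped NNReal
open IsLocalRing Polynomial

variable {p : ℕ} [hp : Fact p.Prime] (D : TameData p)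

local notation "Ω" => PadicAlgCl p
local notation "ι" => algebraMap ℚ_[p] (PadicAlgCl p)
local notation "e" => p ^ 2 - 1
local notation "G" => (PadicAlgCl p ≃ₐ[ℚ_[p]] PadicAlgCl p)

theorem natDegree_minpoly_zeta : (minpoly ℚ_[p] D.ζ).natDegree = 2 := by
  have hint : IsIntegral ℚ_[p] D.ζ := Algebra.IsIntegral.isIntegral _
  obtain ⟨q, hqm, hq2, hq0, -⟩ := exists_quadratic D
  have hdvd : minpoly ℚ_[p] D.ζ ∣ q := minpoly.dvd _ _ hq0
  have hdeg : 2 ≤ (minpoly ℚ_[p] D.ζ).natDegree := by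
    have hpos := minpoly.natDegree_pos hint
    have hne : (minpoly ℚ_[p] D.ζ).natDegree ≠ 1 := by
      intro h1
      rw [minpoly.natDegree_eq_one_iff] at h1
      obtain ⟨u, hu⟩ := h1
      exact zeta_not_mem_bot D (IntermediateField.mem_bot.2 ⟨u, hu⟩)
    omega
  have := eq_of_monic_of_dvd_of_natDegree_le (minpoly.monic hint) hqm hdvd (hq2.le.trans hdeg)
  rw [← this, hq2]

theorem finrank_K0 : Module.finrank ℚ_[p] (K0 D) = 2 := by
  have hint : IsIntegral ℚ_[p] D.ζ := Algebra.IsIntegral.isIntegral _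
  rw [K0, IntermediateField.adjoin.finrank hint, natDegree_minpoly_zeta]

theorem finrank_K1 : Module.finrank ℚ_[p] (K1 D) = 2 * e := by
  have hint : IsIntegral (K0 D) D.π := Algebra.IsIntegral.isIntegral _
  set L : IntermediateField (K0 D) (PadicAlgCl p) :=
    IntermediateField.adjoin (K0 D) {D.π} with hL
  have h1 : Module.finrank (K0 D) L = e := by
    rw [hL, IntermediateField.adjoin.finrank hint, minpoly_pi]
    exact natDegree_X_pow_add_C
  have h2 : L.restrictScalars ℚ_[p] = K1 D := by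
    rw [hL, K0, IntermediateField.adjoin_adjoin_left, K1, Set.singleton_union]
  have h3 := Module.finrank_mul_finrank ℚ_[p] (K0 D) L
  rw [finrank_K0, h1] at h3
  rw [← h2, h3]
  rfl

theorem index_fixingSubgroup_K1 : (K1 D).fixingSubgroup.index = 2 * e := by
  rw [← IntermediateField.finrank_eq_fixingSubgroup_index, finrank_K1]

theorem finiteIndex_fixingSubgroup_K1 : (K1 D).fixingSubgroup.FiniteIndex := by
  refine ⟨?_⟩
  rw [index_fixingSubgroup_K1]
  have := sq_sub_one_pos p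
  omega

theorem not_dvd_index_fixingSubgroup_K1 (hp2 : p ≠ 2) : ¬ p ∣ (K1 D).fixingSubgroup.index := by
  rw [index_fixingSubgroup_K1]
  intro h
  have hpp := hp.out
  rcases (Nat.Prime.dvd_mul hpp).1 h with h2 | h2
  · exact hp2 ((Nat.prime_dvd_prime_iff_eq hpp Nat.prime_two).1 h2)
  · -- `p ∣ p² - 1` and `p ∣ p²` give `p ∣ 1`
    have h3 : p ∣ p ^ 2 := dvd_pow_self p two_ne_zero
    have h4 : 1 ≤ p ^ 2 := Nat.one_le_pow _ _ hpp.pos
    have h5 : p ∣ p ^ 2 - (p ^ 2 - 1) := Nat.dvd_sub h3 h2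
    have h6 : p ^ 2 - (p ^ 2 - 1) = 1 := by omega
    rw [h6] at h5
    exact hpp.one_lt.ne' (Nat.dvd_one.1 h5)

theorem normal_K1 : Normal ℚ_[p] (K1 D) := by
  rw [IntermediateField.normal_iff_forall_map_le' (L := PadicAlgCl p)]
  rintro σ x ⟨y, hy, rfl⟩
  exact map_mem_K1 D σ hy

theorem isGalois_K1 : IsGalois ℚ_[p] (K1 D) :=
  haveI := normal_K1 D
  { to_isSeparable := inferInstance, to_normal := normal_K1 D }

end Fermat.Agent.TW.K1
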