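import Mathlib
import Fermat.Agent.CFT.Local.HenselGeneral
import Fermat.Agent.CFT.Local.ExtDVR

/-!
# TW / K1, node K1-6: `ζ_p ∈ ℚ_p((-p)^{1/(p-1)})`

* `exists_primitiveRoot_of_pow_eq_neg_prime` (abstract): `B` a domain, `I`-adically complete for
  a proper ideal `I`, `π₁ ∈ I` with `π₁ ^ (p - 1) = -p ≠ 0`.  Then there is `y ≡ 1 mod I` such
  that `1 + π₁ y` is a primitive `p`-th root of unity.  (Hensel for
  `g = X^(p-1) - S`, where `(π₁ X + 1)^p - 1 = -p π₁ X g`.)
* `exists_primitiveRoot_mem_adjoin` : for `π₁ : PadicAlgCl p` with `π₁ ^ (p - 1) = -p` the field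
  `ℚ_p(π₁)` contains a primitive `p`-th root of unity.
* `exists_primitiveRoot_mem_adjoin_pair` : the field `ℚ_p(ζ, π)`, `π ^ (p ^ 2 - 1) = -p`, contains
  a primitive `p`-th root of unity.
-/

set_option autoImplicit false
set_option linter.unusedSectionVars false
set_option linter.style.haveILetI false

open Polynomial IsLocalRing

namespace Fermat.Agent.TW.K1

section Abstract

variable {B : Type*} [CommRing B]

/-- The polynomial identity behind the construction: with `S` the binomial sum of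
`add_pow_prime_eq`, `(π₁ X + 1)^p - 1 = π₁^p X^p + p π₁ X S` and `S ≡ 1` modulo any ideal
containing `π₁`. -/
theorem exists_binom_poly {p : ℕ} (hp : p.Prime) (π₁ : B) (I : Ideal B) (hπI : π₁ ∈ I) :
    ∃ S : B[X], (C π₁ * X + 1) ^ p = (C π₁ * X) ^ p + 1 + (p : B[X]) * (C π₁ * X) * S ∧
      S.map (Ideal.Quotient.mk I) = 1 := by
  classical
  refine ⟨∑ k ∈ Finset.Ioo 0 p, (C π₁ * X) ^ (k - 1) * 1 ^ (p - k - 1) *
    ((p.choose k / p : ℕ) : B[X]), ?_, ?_⟩
  · have := add_pow_prime_eq hp (C π₁ * X : B[X]) 1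
    rw [this, one_pow, mul_one]
  · rw [Polynomial.map_sum]
    have h1 : (1 : ℕ) ∈ Finset.Ioo 0 p := Finset.mem_Ioo.mpr ⟨Nat.one_pos, hp.one_lt⟩
    rw [Finset.sum_eq_single_of_mem 1 h1]
    · simp [Nat.choose_one_right, Nat.div_self hp.pos]
    · intro k hk hk1
      have hk0 : 0 < k := (Finset.mem_Ioo.mp hk).1
      have hk2 : k - 1 ≠ 0 := by omega
      have hπ0 : Ideal.Quotient.mk I π₁ = 0 := Ideal.Quotient.eq_zero_iff_mem.mpr hπI
      simp [Polynomial.map_mul, Polynomial.map_pow, hπ0, hk2]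

variable [IsDomain B]

/-- **K1-6, abstract form.** -/
theorem exists_primitiveRoot_of_pow_eq_neg_prime (I : Ideal B) [IsAdicComplete I B] (hI : I ≠ ⊤)
    {p : ℕ} (hp : p.Prime) (π₁ : B) (hπ₁ : π₁ ^ (p - 1) = -(p : B)) (hπI : π₁ ∈ I)
    (hp0 : (p : B) ≠ 0) :
    ∃ y : B, y - 1 ∈ I ∧ IsPrimitiveRoot (1 + π₁ * y) p := by
  obtain ⟨S, hS, hSmap⟩ := exists_binom_poly hp π₁ I hπI
  have hp1 : 1 ≤ p - 1 := by have := hp.two_le; omega
  have hpI : (p : B) ∈ I := by
    have : (p : B) = -(π₁ ^ (p - 1)) := by rw [hπ₁, neg_neg]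
    rw [this]
    exact neg_mem (Ideal.pow_mem_of_mem I hπI _ (by omega))
  have hπ0 : π₁ ≠ 0 := by
    rintro rfl
    rw [zero_pow (by omega)] at hπ₁
    exact hp0 (by simpa using hπ₁.symm)
  have hπp : π₁ ^ p = -(p : B) * π₁ := by
    have : π₁ ^ p = π₁ ^ (p - 1) * π₁ := by
      rw [← pow_succ]; congr 1; omega
    rw [this, hπ₁]
  -- evaluation of `S` and of its derivative at `1` modulo `I`
  have hmk : ∀ (f : B[X]) (r : B), Ideal.Quotient.mk I (f.eval r) =
      (f.map (Ideal.Quotient.mk I)).eval (Ideal.Quotient.mk I r) := by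
    intro f r
    rw [eval_map, eval₂_at_apply]
  have hS1 : Ideal.Quotient.mk I (S.eval 1) = 1 := by
    rw [hmk, hSmap, eval_one]
  have hS'1 : Ideal.Quotient.mk I ((derivative S).eval 1) = 0 := by
    rw [hmk, ← derivative_map, hSmap, derivative_one, eval_zero]
  -- Hensel for `g = X^(p-1) - S` at `1`
  set g : B[X] := X ^ (p - 1) - S with hg
  have hg1 : g.eval 1 ∈ I := by
    rw [← Ideal.Quotient.eq_zero_iff_mem, hg, eval_sub, eval_pow, eval_X, one_pow, map_sub,
      map_one, hS1, sub_self]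
  have hg'1 : IsUnit (Ideal.Quotient.mk I ((derivative g).eval 1)) := by
    have hpq : Ideal.Quotient.mk I (p : B) = 0 := Ideal.Quotient.eq_zero_iff_mem.mpr hpI
    have : Ideal.Quotient.mk I ((derivative g).eval 1) = -1 := by
      rw [hg, derivative_sub, derivative_X_pow, eval_sub, eval_mul, eval_C, eval_pow, eval_X,
        one_pow, mul_one, map_sub, hS'1, sub_zero, Nat.cast_sub hp.one_lt.le, Nat.cast_one,
        map_sub, hpq, map_one, zero_sub]
    rw [this]
    exact isUnit_one.neg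
  obtain ⟨y, hy, hyI⟩ :=
    Fermat.Agent.CFT.exists_isRoot_sub_mem_of_isAdicComplete I g 1 hg1 hg'1
  refine ⟨y, hyI, ?_⟩
  -- `y ≠ 0`
  have hy0 : y ≠ 0 := by
    rintro rfl
    apply hI
    rw [Ideal.eq_top_iff_one]
    have := neg_mem hyI
    simpa using this
  -- `(1 + π₁ y)^p = 1`
  have hpow : (1 + π₁ * y) ^ p = 1 := by
    have h1 := congrArg (eval y) hS
    simp only [eval_pow, eval_add, eval_mul, eval_C, eval_X, eval_one, eval_natCast] at h1
    have hgy : y ^ (p - 1) = S.eval y := by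
      have : g.eval y = 0 := hy
      rw [hg, eval_sub, eval_pow, eval_X, sub_eq_zero] at this
      exact this
    have hyp : y ^ p = y * S.eval y := by
      have : y ^ p = y ^ (p - 1) * y := by
        rw [← pow_succ]; congr 1; omega
      rw [this, hgy, mul_comm]
    rw [add_comm, h1, mul_pow, hπp, hyp]
    ring
  -- primitive since `p` is prime and `1 + π₁ y ≠ 1`
  have hne : 1 + π₁ * y ≠ 1 := by
    intro h
    have : π₁ * y = 0 := by linear_combination h
    rcases mul_eq_zero.mp this with h | h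
    · exact hπ0 h
    · exact hy0 h
  have hord : orderOf (1 + π₁ * y) = p := by
    have hdvd := orderOf_dvd_of_pow_eq_one hpow
    rcases (Nat.dvd_prime hp).mp hdvd with h | h
    · exact absurd (orderOf_eq_one_iff.mp h) hne
    · exact h
  rw [← hord]
  exact IsPrimitiveRoot.orderOf _

end Abstract

section Padic

open Fermat.Agent.CFT

variable (p : ℕ) [Fact p.Prime]

/-- **K1-6.**  `ℚ_p(π₁)` contains a primitive `p`-th root of unity when `π₁ ^ (p - 1) = -p`. -/
theorem exists_primitiveRoot_mem_adjoin (π₁ : PadicAlgCl p)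
    (h : π₁ ^ (p - 1) = -(p : PadicAlgCl p)) :
    ∃ z ∈ IntermediateField.adjoin ℚ_[p] {π₁}, IsPrimitiveRoot z p := by
  have hp : p.Prime := Fact.out
  have hp1 : p - 1 ≠ 0 := by have := hp.two_le; omega
  -- `π₁` is integral over `ℤ_[p]`
  have hint : IsIntegral ℤ_[p] π₁ := by
    refine ⟨X ^ (p - 1) + C (p : ℤ_[p]), monic_X_pow_add_C _ hp1, ?_⟩
    rw [eval₂_add, eval₂_pow, eval₂_X, eval₂_C, h, map_natCast, neg_add_cancel]
  have hintQ : IsIntegral ℚ_[p] π₁ := hint.tower_top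
  haveI : FiniteDimensional ℚ_[p] (IntermediateField.adjoin ℚ_[p] {π₁}) :=
    IntermediateField.adjoin.finiteDimensional hintQ
  haveI := intRing_isLocalRing ℤ_[p] ℚ_[p] (IntermediateField.adjoin ℚ_[p] {π₁})
  haveI := intRing_isAdicComplete ℤ_[p] ℚ_[p] (IntermediateField.adjoin ℚ_[p] {π₁})
  haveI := intRing_isLocalHom ℤ_[p] ℚ_[p] (IntermediateField.adjoin ℚ_[p] {π₁})
  haveI : IsScalarTower ℤ_[p] (IntermediateField.adjoin ℚ_[p] {π₁}) (PadicAlgCl p) :=
    IsScalarTower.of_algebraMap_eq fun a => by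
      rw [IsScalarTower.algebraMap_apply ℤ_[p] ℚ_[p] (PadicAlgCl p),
        IsScalarTower.algebraMap_apply ℤ_[p] ℚ_[p] (IntermediateField.adjoin ℚ_[p] {π₁})]
      rfl
  -- `π₁` as an element of the ring of integers `B` of `K = ℚ_p(π₁)`
  set πK : IntermediateField.adjoin ℚ_[p] {π₁} :=
    ⟨π₁, IntermediateField.mem_adjoin_simple_self _ _⟩ with hπK
  have hπKint : IsIntegral ℤ_[p] πK :=
    (isIntegral_algebraMap_iff
      (algebraMap (IntermediateField.adjoin ℚ_[p] {π₁}) (PadicAlgCl p)).injective).mp hint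
  set πB : integralClosure ℤ_[p] (IntermediateField.adjoin ℚ_[p] {π₁}) := ⟨πK, hπKint⟩ with hπB
  have hπBpow : πB ^ (p - 1) =
      -(p : integralClosure ℤ_[p] (IntermediateField.adjoin ℚ_[p] {π₁})) := by
    apply Subtype.ext
    apply Subtype.ext
    simpa using h
  have hpm : (p : integralClosure ℤ_[p] (IntermediateField.adjoin ℚ_[p] {π₁})) ∈
      maximalIdeal (integralClosure ℤ_[p] (IntermediateField.adjoin ℚ_[p] {π₁})) := by
    have h1 : (p : ℤ_[p]) ∈ maximalIdeal ℤ_[p] := by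
      rw [PadicInt.maximalIdeal_eq_span_p]
      exact Ideal.mem_span_singleton_self _
    have h2 := map_nonunit (algebraMap ℤ_[p]
      (integralClosure ℤ_[p] (IntermediateField.adjoin ℚ_[p] {π₁}))) (p : ℤ_[p]) h1
    rwa [map_natCast] at h2
  have hmem : πB ∈
      maximalIdeal (integralClosure ℤ_[p] (IntermediateField.adjoin ℚ_[p] {π₁})) := by
    have h1 : πB ^ (p - 1) ∈
        maximalIdeal (integralClosure ℤ_[p] (IntermediateField.adjoin ℚ_[p] {π₁})) := by
      rw [hπBpow]; exact neg_mem hpm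
    exact Ideal.IsPrime.mem_of_pow_mem inferInstance _ h1
  have hp0 : (p : integralClosure ℤ_[p] (IntermediateField.adjoin ℚ_[p] {π₁})) ≠ 0 := by
    exact_mod_cast hp.ne_zero
  obtain ⟨y, -, hz⟩ := exists_primitiveRoot_of_pow_eq_neg_prime
    (maximalIdeal (integralClosure ℤ_[p] (IntermediateField.adjoin ℚ_[p] {π₁})))
    (Ideal.IsMaximal.ne_top inferInstance) hp πB hπBpow hmem hp0
  refine ⟨(((1 + πB * y : integralClosure ℤ_[p] (IntermediateField.adjoin ℚ_[p] {π₁})) :
    IntermediateField.adjoin ℚ_[p] {π₁}) : PadicAlgCl p), SetLike.coe_mem _, ?_⟩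
  exact hz.map_of_injective
    (f := (algebraMap (IntermediateField.adjoin ℚ_[p] {π₁}) (PadicAlgCl p)).comp
      (algebraMap (integralClosure ℤ_[p] (IntermediateField.adjoin ℚ_[p] {π₁}))
        (IntermediateField.adjoin ℚ_[p] {π₁})))
    ((algebraMap (IntermediateField.adjoin ℚ_[p] {π₁}) (PadicAlgCl p)).injective.comp
      Subtype.val_injective)

/-- The field `ℚ_p(ζ, π)` with `π ^ (p ^ 2 - 1) = -p` contains a primitive `p`-th root of unity. -/
theorem exists_primitiveRoot_mem_adjoin_pair (ζ π : PadicAlgCl p)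
    (h : π ^ (p ^ 2 - 1) = -(p : PadicAlgCl p)) :
    ∃ z ∈ IntermediateField.adjoin ℚ_[p] {ζ, π}, IsPrimitiveRoot z p := by
  have hp : p.Prime := Fact.out
  have hpow : (π ^ (p + 1)) ^ (p - 1) = -(p : PadicAlgCl p) := by
    rw [← pow_mul, ← h]
    congr 1
    have : (p + 1) * (p - 1) = p ^ 2 - 1 := by
      have := hp.one_lt
      zify [this.le, Nat.one_le_pow 2 p hp.pos]
      ring
    exact this
  obtain ⟨z, hz, hzp⟩ := exists_primitiveRoot_mem_adjoin p (π ^ (p + 1)) hpow
  refine ⟨z, ?_, hzp⟩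
  have hle : IntermediateField.adjoin ℚ_[p] {π ^ (p + 1)} ≤
      IntermediateField.adjoin ℚ_[p] {ζ, π} := by
    rw [IntermediateField.adjoin_le_iff]
    intro x hx
    rw [Set.mem_singleton_iff] at hx
    subst hx
    exact pow_mem (IntermediateField.subset_adjoin _ _ (by simp)) _
  exact hle hz

end Padic

end Fermat.Agent.TW.K1
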