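import Mathlib
import Fermat.Agent.TW.K1.Operators
import Fermat.Agent.TW.K1.Index
import Fermat.Agent.TW.K1.CommInertia
import Fermat.Agent.TW.K1.ZetaP
import Fermat.Agent.TW.KumEigen.Data

/-!
# S56 sprint, K1 BRIDGE (6): the term `exists_tameData`

helper20's `KumEigen.TameData p ℚ_[p] (PadicAlgCl p)` (vendored byte-identically from
origin/helper20) is inhabited: `K₁ = ℚ_p(ζ, π)`, `ζ` a primitive `(p²-1)`-th root of unity,
`π^(p²-1) = -p`, `H = Gal(ℚ̄_p/K₁)`, with `ζ_p ∈ K₁` from helper22's `ZetaP.lean` and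
`comm_inertia` from helper13's `CommInertia.lean` (both vendored byte-identically).

`exists_tameData_all` (and its first published cut `exists_tameData_full`) also exports that `H` is the fixing subgroup of the finite extension
`F = ℚ_p(ζ, π)`, that `π^(p²-1) = -p` exactly, the action of `φ` on `ζ` and `π`, and that `τ` acts
trivially on the residue classes of `F`.

Branch-only work.
-/

set_option autoImplicit false
set_option linter.style.haveILetI false
set_option linter.dupNamespace false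

namespace Fermat.Agent.TW.K1

open scoped NNReal

variable {p : ℕ} [hp : Fact p.Prime]

local notation "Ω" => PadicAlgCl p
local notation "G" => (PadicAlgCl p ≃ₐ[ℚ_[p]] PadicAlgCl p)

/-- `τ` acts trivially on the residue classes of `K1`. -/
theorem norm_tau_sub_lt_one (D : TameData p) {τ : G} (hτ : τ D.ζ = D.ζ) {x : PadicAlgCl p}
    (hx : x ∈ K1 D) (hx1 : ‖x‖ ≤ 1) : ‖τ x - x‖ < 1 := by
  rcases norm_lt_one_or_exists_zeta_pow D hx hx1 with h | ⟨j, -, hj⟩
  · refine (norm_sub_le_max _ _).trans_lt (max_lt ?_ h)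
    rw [norm_map]
    exact h
  · have h1 : τ x - x = τ (x - D.ζ ^ j) - (x - D.ζ ^ j) := by
      rw [map_sub, map_pow, hτ]
      ring
    rw [h1]
    refine (norm_sub_le_max _ _).trans_lt (max_lt ?_ hj)
    rw [norm_map]
    exact hj

theorem finiteDimensional_K1 (D : TameData p) : FiniteDimensional ℚ_[p] (K1 D) := by
  haveI : Finite ({D.ζ, D.π} : Set (PadicAlgCl p)) := ((Set.finite_singleton D.π).insert D.ζ).to_subtype
  exact IntermediateField.finiteDimensional_adjoin fun x _ => Algebra.IsIntegral.isIntegral x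

variable (p)

/-- **K1 BRIDGE.**  helper20's tame field data exist over `ℚ_p ⊂ ℚ̄_p`, with `H` the absolute
Galois group of the finite extension `F = ℚ_p(ζ, π)`. -/
theorem exists_tameData_master :
    ∃ (T : KumEigen.TameData p ℚ_[p] (PadicAlgCl p))
      (F : IntermediateField ℚ_[p] (PadicAlgCl p)),
      T.H = F.fixingSubgroup ∧ F = IntermediateField.adjoin ℚ_[p] {T.ζ, T.π} ∧
      FiniteDimensional ℚ_[p] F ∧ T.π ^ (p ^ 2 - 1) = -(p : PadicAlgCl p) ∧ T.ζp ∈ F ∧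
      T.φ T.ζ = T.ζ ^ p ∧ T.φ T.π = T.π ∧
      (∀ σ : G, ∀ x ∈ F, σ x ∈ F) ∧
      (∀ x ∈ F, ‖x‖ ≤ 1 → ‖T.τ x - x‖ < 1) ∧
      T.H.FiniteIndex ∧ T.H.index = 2 * (p ^ 2 - 1) ∧ (p ≠ 2 → ¬ p ∣ T.H.index) ∧
      Module.finrank ℚ_[p] F = 2 * (p ^ 2 - 1) ∧ IsGalois ℚ_[p] F := by
  obtain ⟨D⟩ := nonempty_tameData p
  obtain ⟨τ, hτ⟩ := exists_tau D
  obtain ⟨φ, hφ⟩ := exists_phi D
  obtain ⟨z, hzK, hz⟩ := exists_primitiveRoot_mem_adjoin_pair p D.ζ D.π D.hπ
  have hfix : ∀ x ∈ K1 D, ∀ σ ∈ (K1 D).fixingSubgroup, σ x = x := fun x hx σ hσ =>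
    (IntermediateField.mem_fixingSubgroup_iff _ σ).1 hσ x hx
  refine ⟨{
      H := (K1 D).fixingSubgroup
      normal := normal_fixingSubgroup_K1 D
      ζ := D.ζ
      π := D.π
      ζp := z
      τ := τ
      φ := φ
      isom := fun g x => norm_map g x
      norm_p_pos := by
        rw [norm_prime]
        exact inv_pos.2 (by exact_mod_cast hp.out.pos)
      norm_p_lt := norm_prime_lt_one
      hζ := D.hζ
      hπ := by rw [norm_pi_pow, norm_prime]
      hζp := hz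
      ζ_mem := hfix _ (zeta_mem_K1 D)
      π_mem := hfix _ (pi_mem_K1 D)
      ζp_mem := hfix _ hzK
      disc := fun x hx hx0 => norm_mem_K1 D (mem_K1_of_fixed D hx) hx0
      resid := fun x hx hx1 => by
        rcases norm_lt_one_or_exists_zeta_pow D (mem_K1_of_fixed D hx) hx1 with h | ⟨j, -, hj⟩
        · exact Or.inl h
        · exact Or.inr ⟨j, hj⟩
      τζ := hτ.1
      τπ := hτ.2
      φτ := phi_tau_relation D hτ hφ
      comm_inertia := fun g h x hx => comm_inertia p g h x hx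
      exists_root := fun u => IsAlgClosed.exists_pow_nat_eq u hp.out.pos }, K1 D, rfl, rfl,
    finiteDimensional_K1 D, D.hπ, hzK, hφ.1, hφ.2, fun σ x hx => map_mem_K1 D σ hx,
    fun x hx hx1 => norm_tau_sub_lt_one D hτ.1 hx hx1, finiteIndex_fixingSubgroup_K1 D,
    index_fixingSubgroup_K1 D, not_dvd_index_fixingSubgroup_K1 D, finrank_K1 D, isGalois_K1 D⟩

/-- The K1 bridge, one-stop form (second published form). -/
theorem exists_tameData_all :
    ∃ (T : KumEigen.TameData p ℚ_[p] (PadicAlgCl p))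
      (F : IntermediateField ℚ_[p] (PadicAlgCl p)),
      T.H = F.fixingSubgroup ∧ F = IntermediateField.adjoin ℚ_[p] {T.ζ, T.π} ∧
      FiniteDimensional ℚ_[p] F ∧ T.π ^ (p ^ 2 - 1) = -(p : PadicAlgCl p) ∧ T.ζp ∈ F ∧
      T.φ T.ζ = T.ζ ^ p ∧ T.φ T.π = T.π ∧
      (∀ σ : G, ∀ x ∈ F, σ x ∈ F) ∧
      (∀ x ∈ F, ‖x‖ ≤ 1 → ‖T.τ x - x‖ < 1) ∧
      T.H.FiniteIndex ∧ T.H.index = 2 * (p ^ 2 - 1) ∧ (p ≠ 2 → ¬ p ∣ T.H.index) ∧
      Module.finrank ℚ_[p] F = 2 * (p ^ 2 - 1) := by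
  obtain ⟨T, F, h1, h2, h3, h4, h5, h6, h7, h8, h9, h10, h11, h12, h13, -⟩ :=
    exists_tameData_master p
  exact ⟨T, F, h1, h2, h3, h4, h5, h6, h7, h8, h9, h10, h11, h12, h13⟩

/-- The K1 bridge with `H = Gal(ℚ̄_p / F)`, `F = ℚ_p(ζ, π)` (first published form). -/
theorem exists_tameData_full :
    ∃ (T : KumEigen.TameData p ℚ_[p] (PadicAlgCl p))
      (F : IntermediateField ℚ_[p] (PadicAlgCl p)),
      T.H = F.fixingSubgroup ∧ F = IntermediateField.adjoin ℚ_[p] {T.ζ, T.π} ∧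
      FiniteDimensional ℚ_[p] F ∧ T.π ^ (p ^ 2 - 1) = -(p : PadicAlgCl p) ∧ T.ζp ∈ F ∧
      T.φ T.ζ = T.ζ ^ p ∧ T.φ T.π = T.π ∧
      (∀ σ : G, ∀ x ∈ F, σ x ∈ F) ∧
      (∀ x ∈ F, ‖x‖ ≤ 1 → ‖T.τ x - x‖ < 1) := by
  obtain ⟨T, F, h1, h2, h3, h4, h5, h6, h7, h8, h9, -⟩ := exists_tameData_all p
  exact ⟨T, F, h1, h2, h3, h4, h5, h6, h7, h8, h9⟩

/-- helper20's ask: the index of `H` is finite and prime to `p` (for odd `p`). -/
theorem exists_tameData_index (hp2 : p ≠ 2) :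
    ∃ (T : KumEigen.TameData p ℚ_[p] (PadicAlgCl p))
      (F : IntermediateField ℚ_[p] (PadicAlgCl p)),
      T.H = F.fixingSubgroup ∧ T.H.FiniteIndex ∧ ¬ p ∣ T.H.index := by
  obtain ⟨T, F, h1, -, -, -, -, -, -, -, -, h10, -, h12, -⟩ := exists_tameData_all p
  exact ⟨T, F, h1, h10, h12 hp2⟩

/-- helper20's literal target. -/
theorem exists_tameData : Nonempty (KumEigen.TameData p ℚ_[p] (PadicAlgCl p)) := by
  obtain ⟨T, -⟩ := exists_tameData_full p
  exact ⟨T⟩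

end Fermat.Agent.TW.K1
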