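import Fermat.Agent.CFT.Global.KummerLocalField
import Fermat.Agent.CFT.Local.Instantiate
import Fermat.Agent.CFT.Local.ExtDVROrd
import Fermat.Agent.CFT.Local.TameCyclo

/-!
# TW / K1: the dictionary norm ↔ `dvrOrd` for finite subextensions of `PadicAlgCl p / ℚ_[p]`

`E : IntermediateField ℚ_[p] (PadicAlgCl p)` finite, `B := intRing p E = integralClosure ℤ_[p] E`
(the unit ball of `E`, main's `KummerLocal.mem_intRing_iff`), `e := ramIdx ℤ_[p] E`,
`f := inertDeg ℤ_[p] E`.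

* (D1) `norm_eq_norm_irreducible_zpow` : `‖x‖ = ‖ϖ‖ ^ ord x`;
* (D2) `norm_irreducible_pow_ramIdx` : `‖ϖ‖ ^ e = ‖p‖`;
* (D3) `norm_pow_ramIdx` : `‖x‖ ^ e = ‖p‖ ^ ord x`;
* (D4) `exists_norm_eq_zpow` : if `π ∈ E`, `‖π‖ ^ e = ‖p‖` then the value group of `E` is `‖π‖ ^ ℤ`;
* (D5) `norm_lt_one_or_exists_pow` : if `ζ ∈ E` is a primitive `(p ^ f - 1)`-th root of unity then
  the residue classes of the unit ball of `E` are `0` and the powers of `ζ`;
* (D6) `norm_sub_lt_one_of_fixes` : an automorphism of `E` fixing such a `ζ` acts trivially on the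
  residue field.
-/

set_option autoImplicit false
set_option linter.unusedSectionVars false
set_option linter.style.haveILetI false

open IsLocalRing Fermat.Agent.CFT Fermat.Agent.CFT.PadicTower Fermat.Agent.CFT.KummerLocal

namespace Fermat.Agent.TW.K1

variable {p : ℕ} [Fact p.Prime]

local notation "Ω" => PadicAlgCl p

variable (E : IntermediateField ℚ_[p] (PadicAlgCl p)) [FiniteDimensional ℚ_[p] E]
  [IsDiscreteValuationRing (intRing p E)] [IsFractionRing (intRing p E) E]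

theorem norm_natCast_prime_pos : 0 < ‖((p : ℕ) : Ω)‖ := by
  rw [norm_pos_iff]
  exact_mod_cast (Fact.out : p.Prime).ne_zero

theorem norm_natCast_prime_lt_one : ‖((p : ℕ) : Ω)‖ < 1 := by
  rw [← map_natCast (algebraMap ℚ_[p] Ω), PadicAlgCl.norm_extends]
  exact Padic.norm_p_lt_one

/-- (D1) `‖x‖ = ‖ϖ‖ ^ ord x`. -/
theorem norm_eq_norm_irreducible_zpow {ϖ : intRing p E} (hϖ : Irreducible ϖ) {x : E}
    (hx : x ≠ 0) :
    ‖(x : Ω)‖ = ‖((ϖ : E) : Ω)‖ ^ (dvrOrd (intRing p E) E x) := by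
  obtain ⟨u, hu⟩ := exists_unit_mul_zpow_dvrOrd (intRing p E) E hϖ hx
  have hu1 : ‖(((u : intRing p E) : E) : Ω)‖ = 1 := (isUnit_intRing_iff E _).mp u.isUnit
  have h1 : (x : Ω) = (((u : intRing p E) : E) : Ω) *
      (((ϖ : E) : Ω)) ^ (dvrOrd (intRing p E) E x) := by
    conv_lhs => rw [hu]
    push_cast
    rfl
  rw [h1, norm_mul, hu1, one_mul, norm_zpow]

/-- (D2) `‖ϖ‖ ^ e = ‖p‖`. -/
theorem norm_irreducible_pow_ramIdx {ϖ : intRing p E} (hϖ : Irreducible ϖ) :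
    ‖((ϖ : E) : Ω)‖ ^ (ramIdx ℤ_[p] E) = ‖((p : ℕ) : Ω)‖ := by
  have hp0 : ((p : ℕ) : E) ≠ 0 := by exact_mod_cast (Fact.out : p.Prime).ne_zero
  have h1 := norm_eq_norm_irreducible_zpow E hϖ hp0
  have h2 : dvrOrd (intRing p E) E ((p : ℕ) : E) = ramIdx ℤ_[p] E := by
    have := dvrOrd_algebraMap_irreducible ℤ_[p] ℚ_[p] E (PadicInt.irreducible_p (p := p))
    rwa [map_natCast] at this
  rw [h2, zpow_natCast] at h1
  rw [← h1]
  push_cast
  rfl

/-- (D3) `‖x‖ ^ e = ‖p‖ ^ ord x`. -/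
theorem norm_pow_ramIdx {x : E} (hx : x ≠ 0) :
    ‖(x : Ω)‖ ^ (ramIdx ℤ_[p] E) = ‖((p : ℕ) : Ω)‖ ^ (dvrOrd (intRing p E) E x) := by
  obtain ⟨ϖ, hϖ⟩ := IsDiscreteValuationRing.exists_irreducible (intRing p E)
  rw [norm_eq_norm_irreducible_zpow E hϖ hx, ← norm_irreducible_pow_ramIdx E hϖ,
    ← zpow_natCast, ← zpow_mul, mul_comm, zpow_mul, zpow_natCast]

/-- An element of `E` with `‖π‖ ^ e = ‖p‖` has order one. -/
theorem dvrOrd_eq_one_of_norm_pow {π : E} (hπ : ‖(π : Ω)‖ ^ (ramIdx ℤ_[p] E) = ‖((p : ℕ) : Ω)‖) :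
    dvrOrd (intRing p E) E π = 1 := by
  have hπ0 : π ≠ 0 := by
    rintro rfl
    have he : ramIdx ℤ_[p] E ≠ 0 := (ramIdx_pos ℤ_[p] ℚ_[p] E).ne'
    rw [ZeroMemClass.coe_zero, norm_zero, zero_pow he] at hπ
    exact (norm_natCast_prime_pos (p := p)).ne hπ
  have h1 := norm_pow_ramIdx E hπ0
  rw [hπ] at h1
  have h2 : ‖((p : ℕ) : Ω)‖ ^ (1 : ℤ) = ‖((p : ℕ) : Ω)‖ ^ (dvrOrd (intRing p E) E π) := by
    rw [zpow_one]; exact h1
  exact (zpow_right_injective₀ norm_natCast_prime_pos norm_natCast_prime_lt_one.ne h2).symm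

/-- (D4) **DISC**: the value group of `E` is generated by `‖π‖` as soon as `‖π‖ ^ e = ‖p‖`. -/
theorem exists_norm_eq_zpow {π : Ω} (hπ : ‖π‖ ^ (ramIdx ℤ_[p] E) = ‖((p : ℕ) : Ω)‖) :
    ∀ x ∈ E, x ≠ 0 → ∃ n : ℤ, ‖x‖ = ‖π‖ ^ n := by
  intro x hxE hx0
  refine ⟨dvrOrd (intRing p E) E ⟨x, hxE⟩, ?_⟩
  have hx0' : (⟨x, hxE⟩ : E) ≠ 0 := fun h => hx0 (congrArg Subtype.val h)
  have h1 := norm_pow_ramIdx E hx0'
  have he : ramIdx ℤ_[p] E ≠ 0 := (ramIdx_pos ℤ_[p] ℚ_[p] E).ne'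
  have h2 : ‖x‖ ^ (ramIdx ℤ_[p] E) =
      (‖π‖ ^ (dvrOrd (intRing p E) E ⟨x, hxE⟩)) ^ (ramIdx ℤ_[p] E) := by
    rw [← zpow_natCast (‖π‖ ^ _), ← zpow_mul, mul_comm, zpow_mul, zpow_natCast, hπ]
    exact h1
  exact (pow_left_inj₀ (norm_nonneg _) (zpow_nonneg (norm_nonneg _) _) he).mp h2

section Resid

/-- The cardinality of the residue field of `E` is `p ^ f`. -/
theorem card_residueField_intRing :
    Nat.card (ResidueField (intRing p E)) = p ^ (inertDeg ℤ_[p] E) := by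
  haveI := Fermat.Agent.CFT.intRing_isLocalHom ℤ_[p] ℚ_[p] E
  haveI := intRing_finite_residueField p E
  haveI : Module.Finite (ResidueField ℤ_[p]) (ResidueField (intRing p E)) :=
    Module.Finite.of_finite
  rw [inertDeg_eq_finrank ℤ_[p] ℚ_[p] E,
    Module.natCard_eq_pow_finrank (K := ResidueField ℤ_[p]) (V := ResidueField (intRing p E)),
    TameSym.card_residueField_padicInt]

theorem norm_eq_one_of_isPrimitiveRoot {ζ : Ω} {n : ℕ} (hn : n ≠ 0) (hζ : IsPrimitiveRoot ζ n) :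
    ‖ζ‖ = 1 := by
  have h2 : ‖ζ‖ ^ n = 1 := by rw [← norm_pow, hζ.pow_eq_one, norm_one]
  exact (pow_eq_one_iff_of_nonneg (norm_nonneg _) hn).mp h2

/-- An element of the unit ball of `E` which is not a unit has norm `< 1`. -/
theorem norm_lt_one_of_mem_maximalIdeal {x : intRing p E} (hx : x ∈ maximalIdeal (intRing p E)) :
    ‖((x : E) : Ω)‖ < 1 := by
  have h1 : ‖((x : E) : Ω)‖ ≤ 1 := (mem_intRing_iff E x).mp x.2
  refine lt_of_le_of_ne h1 fun h => ?_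
  exact (mem_maximalIdeal _).mp hx ((isUnit_intRing_iff E x).mpr h)

theorem norm_sub_le_max' (a b : Ω) : ‖a - b‖ ≤ max ‖a‖ ‖b‖ := by
  have := IsUltrametricDist.norm_add_le_max a (-b)
  rwa [norm_neg, ← sub_eq_add_neg] at this

/-- (D5) **RESID**: if `ζ ∈ E` is a primitive `(p ^ f - 1)`-th root of unity, `f = f(E/ℚ_p)`, the
residue classes of the unit ball of `E` are `0` and the powers of `ζ`. -/
theorem norm_lt_one_or_exists_pow {f : ℕ} (hf : inertDeg ℤ_[p] E = f) {ζ : Ω} (hζE : ζ ∈ E)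
    (hζ : IsPrimitiveRoot ζ (p ^ f - 1)) :
    ∀ x ∈ E, ‖x‖ ≤ 1 → ‖x‖ < 1 ∨ ∃ i : ℕ, ‖x - ζ ^ i‖ < 1 := by
  haveI := intRing_finite_residueField p E
  have hp : p.Prime := Fact.out
  have hf1 : 1 ≤ f := by rw [← hf]; exact inertDeg_pos ℤ_[p] ℚ_[p] E
  obtain ⟨n, hn⟩ : ∃ n : ℕ, n = p ^ f - 1 := ⟨_, rfl⟩
  rw [← hn] at hζ
  have hpf : 2 ≤ p ^ f := le_trans hp.two_le (Nat.le_self_pow (by omega) p)
  have hn0 : n ≠ 0 := by omega
  have hn1 : n + 1 = p ^ f := by omega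
  have hζ1 : ‖ζ‖ = 1 := norm_eq_one_of_isPrimitiveRoot hn0 hζ
  -- `ζ` as an element of the ring of integers
  obtain ⟨ζ₀, hζ₀coe⟩ : ∃ ζ₀ : intRing p E, ((ζ₀ : E) : Ω) = ζ :=
    ⟨⟨⟨ζ, hζE⟩, (mem_intRing_iff E ⟨ζ, hζE⟩).mpr hζ1.le⟩, rfl⟩
  have hζ₀ : IsPrimitiveRoot ζ₀ n := by
    have h1 : IsPrimitiveRoot (algebraMap E Ω (algebraMap (intRing p E) E ζ₀)) n := by
      have : algebraMap E Ω (algebraMap (intRing p E) E ζ₀) = ζ := hζ₀coe
      rw [this]; exact hζ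
    exact IsPrimitiveRoot.of_map_of_injective
      (IsPrimitiveRoot.of_map_of_injective h1 (algebraMap E Ω).injective) Subtype.val_injective
  -- `n` is a unit
  have hnu : IsUnit ((n : ℕ) : intRing p E) := by
    rw [isUnit_intRing_iff]
    have h1 : (((n : ℕ) : intRing p E) : E) = ((n : ℕ) : E) := by push_cast; rfl
    rw [h1]
    push_cast
    rw [← map_natCast (algebraMap ℚ_[p] Ω), PadicAlgCl.norm_extends,
      Padic.norm_natCast_eq_one_iff]
    have hndvd : ¬ p ∣ n := by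
      intro hd
      have h2 : p ∣ p ^ f := dvd_pow_self p (by omega)
      rw [← hn1] at h2
      exact hp.one_lt.ne' (Nat.dvd_one.mp ((Nat.dvd_add_right hd).mp h2))
    exact (Nat.Prime.coprime_iff_not_dvd hp).mpr hndvd
  -- the residue of `ζ₀` is a primitive `n`-th root of unity of the residue field
  obtain ⟨r, hr⟩ : ∃ r : ResidueField (intRing p E), r = residue (intRing p E) ζ₀ := ⟨_, rfl⟩
  have hrprim : IsPrimitiveRoot r n := by
    refine IsPrimitiveRoot.mk_of_lt r (Nat.pos_of_ne_zero hn0) ?_ ?_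
    · rw [hr, ← map_pow, hζ₀.pow_eq_one, map_one]
    · intro l hl0 hln hl1
      have hu := TameSym.isUnit_one_sub_pow hζ₀ hnu (k := l)
        (fun hd => absurd (Nat.le_of_dvd hl0 hd) (not_le.mpr hln))
      have h2 : residue (intRing p E) (1 - ζ₀ ^ l) = 0 := by
        rw [map_sub, map_one, map_pow, ← hr, hl1, sub_self]
      exact (mem_maximalIdeal _).mp ((residue_eq_zero_iff _).mp h2) hu
  have hcard : Nat.card (ResidueField (intRing p E)) = n + 1 := by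
    rw [card_residueField_intRing, hf, hn1]
  intro x hxE hx1
  obtain ⟨x₀, hx₀coe⟩ : ∃ x₀ : intRing p E, ((x₀ : E) : Ω) = x :=
    ⟨⟨⟨x, hxE⟩, (mem_intRing_iff E ⟨x, hxE⟩).mpr hx1⟩, rfl⟩
  by_cases hres : residue (intRing p E) x₀ = 0
  · left
    have := norm_lt_one_of_mem_maximalIdeal E ((residue_eq_zero_iff _).mp hres)
    rwa [hx₀coe] at this
  · right
    letI : Fintype (ResidueField (intRing p E)) := Fintype.ofFinite _
    have hpow : (residue (intRing p E) x₀) ^ n = 1 := by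
      have h1 := FiniteField.pow_card_sub_one_eq_one (residue (intRing p E) x₀) hres
      rwa [← Nat.card_eq_fintype_card, hcard, Nat.add_sub_cancel] at h1
    haveI : NeZero n := ⟨hn0⟩
    obtain ⟨i, -, hi⟩ := hrprim.eq_pow_of_pow_eq_one hpow
    refine ⟨i, ?_⟩
    have h2 : residue (intRing p E) (x₀ - ζ₀ ^ i) = 0 := by
      rw [map_sub, map_pow, ← hr, hi, sub_self]
    have h3 := norm_lt_one_of_mem_maximalIdeal E ((residue_eq_zero_iff _).mp h2)
    have h4 : (((x₀ - ζ₀ ^ i : intRing p E) : E) : Ω) = x - ζ ^ i := by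
      rw [← hx₀coe, ← hζ₀coe]
      push_cast
      rfl
    rwa [h4] at h3

/-- `Gal(E/ℚ_p)` acts on `E` by isometries. -/
theorem norm_algEquiv_apply (s : E ≃ₐ[ℚ_[p]] E) (y : E) : ‖((s y : E) : Ω)‖ = ‖(y : Ω)‖ := by
  have h1 : minpoly ℚ_[p] ((s y : E) : Ω) = minpoly ℚ_[p] (y : Ω) := by
    rw [← IntermediateField.algebraMap_apply, ← IntermediateField.algebraMap_apply,
      minpoly.algebraMap_eq (algebraMap E Ω).injective,
      minpoly.algebraMap_eq (algebraMap E Ω).injective, minpoly.algEquiv_eq]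
  show spectralValue (minpoly ℚ_[p] ((s y : E) : Ω)) = spectralValue (minpoly ℚ_[p] (y : Ω))
  rw [h1]

/-- (D6) An automorphism of `E` fixing a primitive `(p ^ f - 1)`-th root of unity acts trivially
on the residue field. -/
theorem norm_sub_lt_one_of_fixes {f : ℕ} (hf : inertDeg ℤ_[p] E = f) {ζ : E}
    (hζ : IsPrimitiveRoot (ζ : Ω) (p ^ f - 1)) (s : E ≃ₐ[ℚ_[p]] E) (hs : s ζ = ζ) (y : E)
    (hy : ‖(y : Ω)‖ ≤ 1) : ‖((s y : E) : Ω) - (y : Ω)‖ < 1 := by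
  rcases norm_lt_one_or_exists_pow E hf ζ.2 hζ (y : Ω) y.2 hy with h | ⟨i, hi⟩
  · refine lt_of_le_of_lt (norm_sub_le_max' _ _) (max_lt ?_ h)
    rw [norm_algEquiv_apply]; exact h
  · have h1 : ((s y : E) : Ω) - (y : Ω) =
        ((s (y - ζ ^ i) : E) : Ω) - ((y - ζ ^ i : E) : Ω) := by
      rw [map_sub, map_pow, hs]
      push_cast
      ring
    rw [h1]
    have h2 : ‖((y - ζ ^ i : E) : Ω)‖ < 1 := by
      push_cast
      exact hi
    refine lt_of_le_of_lt (norm_sub_le_max' _ _) (max_lt ?_ h2)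
    rw [norm_algEquiv_apply]; exact h2

end Resid

end Fermat.Agent.TW.K1
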